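import Mathlib

/-!
# S22 helper (helper31): group-theoretic facts about `Γ₀(N)`

* `gamma0_fg`: `Γ₀(N)` is finitely generated (Schreier's lemma).
* `exists_mem_Gamma0_mul_T_pow`: for `g : SL(2, ℤ)`, `g * T ^ N = γ * g` for some `γ ∈ Γ₀(N)`.
-/

set_option autoImplicit false

namespace Fermat.Agent.S22.helper31

open scoped MatrixGroups
open CongruenceSubgroup Matrix.SpecialLinearGroup

/-- `SL(2, ℤ)` is finitely generated (by `S` and `T`). -/
instance sl2Z_fg : Group.FG SL(2, ℤ) := by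
  rw [Group.fg_iff]
  refine ⟨{ModularGroup.S, ModularGroup.T}, SpecialLinearGroup.SL2Z_generators, ?_⟩
  exact (Set.finite_singleton _).insert _

/-- **(P3)** `Γ₀(N)` is finitely generated. -/
theorem gamma0_fg (N : ℕ) [NeZero N] : Group.FG (Gamma0 N) :=
  Subgroup.fg_of_index_ne_zero (Gamma0 N)

/-- `Γ₀(N)` as a subgroup is finitely generated. -/
theorem gamma0_subgroup_fg (N : ℕ) [NeZero N] : (Gamma0 N).FG :=
  (Group.fg_iff_subgroup_fg _).mp (gamma0_fg N)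

/-- There is a finite set of elements of `SL(2, ℤ)` whose closure is `Γ₀(N)`. -/
theorem exists_finset_closure_eq_gamma0 (N : ℕ) [NeZero N] :
    ∃ s : Finset SL(2, ℤ), Subgroup.closure (s : Set SL(2, ℤ)) = Gamma0 N :=
  gamma0_subgroup_fg N

/-- There is a finite set of elements of `SL(2, ℤ)` whose closure is `Γ₀(N)` (`Set` version). -/
theorem exists_finite_closure_eq_gamma0 (N : ℕ) [NeZero N] :
    ∃ S : Set SL(2, ℤ), S.Finite ∧ Subgroup.closure S = Gamma0 N := by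
  obtain ⟨S, hS, hfin⟩ := (Subgroup.fg_iff _).mp (gamma0_subgroup_fg N)
  exact ⟨S, hfin, hS⟩

theorem Gamma_le_Gamma0 (N : ℕ) : Gamma N ≤ Gamma0 N := by
  intro γ hγ
  rw [Gamma_mem] at hγ
  rw [Gamma0_mem]
  exact hγ.2.2.1

/-- `g * T ^ N * g⁻¹ ∈ Γ₀(N)` for every `g : SL(2, ℤ)`. -/
theorem conj_T_pow_mem_Gamma0 (N : ℕ) (g : SL(2, ℤ)) :
    g * ModularGroup.T ^ N * g⁻¹ ∈ Gamma0 N := by
  apply Gamma_le_Gamma0
  have hT : ModularGroup.T ^ N ∈ Gamma N := by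
    have := ModularGroup_T_pow_mem_Gamma (N : ℤ) (N : ℤ) dvd_rfl
    simpa using this
  exact (Gamma_normal N).conj_mem _ hT g

/-- **(P6)** For `g : SL(2, ℤ)` there is `γ ∈ Γ₀(N)` with `g * T ^ N = γ * g`. -/
theorem exists_mem_Gamma0_mul_T_pow (N : ℕ) (g : SL(2, ℤ)) :
    ∃ γ ∈ Gamma0 N, g * ModularGroup.T ^ N = γ * g :=
  ⟨g * ModularGroup.T ^ N * g⁻¹, conj_T_pow_mem_Gamma0 N g, by group⟩

/-- **(P6)**, `GL (Fin 2) ℝ` version. -/
theorem exists_mem_map_Gamma0_mul_T_pow (N : ℕ) (g : SL(2, ℤ)) :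
    ∃ γ ∈ Subgroup.map (mapGL ℝ) (Gamma0 N),
      mapGL ℝ g * (mapGL ℝ ModularGroup.T) ^ N = γ * mapGL ℝ g := by
  obtain ⟨γ, hγ, h⟩ := exists_mem_Gamma0_mul_T_pow N g
  refine ⟨mapGL ℝ γ, Subgroup.mem_map_of_mem _ hγ, ?_⟩
  rw [← map_pow, ← map_mul, ← map_mul, h]

end Fermat.Agent.S22.helper31
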