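import Fermat.Agent.S22.Lattice
import Fermat.Agent.S22.helper31_Gamma0

/-!
# The period lattice is finitely generated
-/

set_option autoImplicit false

namespace Fermat.Agent.S22

open Complex UpperHalfPlane Filter Topology Set Matrix.SpecialLinearGroup
open scoped Manifold ModularForm MatrixGroups Pointwise

section

variable {Γ : Subgroup (GL (Fin 2) ℝ)} [Γ.IsArithmetic] [Γ.HasDetOne]

/-- Eichler functionals at integer vectors are integer combinations of moment functionals. -/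
theorem eichL_int_mem (m : ℕ) (z : ℍ) (a b : ℤ)
    (M : Submodule ℤ (CuspForm Γ ((m : ℤ) + 2) →ₗ[ℂ] ℂ))
    (hM : ∀ j ≤ m, npL Γ ((m : ℤ) + 2) j z ∈ M) :
    eichL Γ m z a b ∈ M := by
  unfold eichL
  refine Submodule.sum_mem _ fun j hj => ?_
  have e : ((m.choose j : ℂ) * (a : ℂ) ^ j * (-(b : ℂ)) ^ (m - j))
      = (((m.choose j : ℤ) * a ^ j * (-b) ^ (m - j) : ℤ) : ℂ) := by
    push_cast
    ring
  rw [e, Int.cast_smul_eq_zsmul]
  exact M.smul_mem _ (hM _ (Nat.sub_le _ _))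

end

/-- A submodule of a finitely generated `ℤ`-submodule is finitely generated. -/
theorem fg_of_le_of_fg_int {A : Type*} [AddCommGroup A] {P Q : Submodule ℤ A} (h : P ≤ Q)
    (hQ : Q.FG) : P.FG := by
  haveI : IsNoetherian ℤ Q := isNoetherian_of_fg_of_noetherian Q hQ
  have h1 : (Submodule.comap Q.subtype P).FG := IsNoetherian.noetherian _
  have h2 := h1.map Q.subtype
  rwa [Submodule.map_comap_subtype, inf_eq_right.mpr h] at h2

theorem periodLattice_fg (N : ℕ) [NeZero N] (m : ℕ) : (periodLattice N m).FG := by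
  obtain ⟨S, hSfin, hS⟩ := helper31.exists_finite_closure_eq_gamma0 N
  -- the finite set of base points
  set Z : Set ℍ := insert UpperHalfPlane.I ((fun s : SL(2, ℤ) => (mapGL ℝ s) • UpperHalfPlane.I) '' S)
    with hZ
  have hZfin : Z.Finite := (hSfin.image _).insert _
  set T : Set (CuspForm (CongruenceSubgroup.Gamma0 N : Subgroup (GL (Fin 2) ℝ)) ((m : ℤ) + 2)
      →ₗ[ℂ] ℂ) :=
    (fun p : ℕ × ℍ => npL (CongruenceSubgroup.Gamma0 N : Subgroup (GL (Fin 2) ℝ))
      ((m : ℤ) + 2) p.1 p.2) '' ((Finset.range (m + 1) : Set ℕ) ×ˢ Z) with hT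
  have hTfin : T.Finite := ((Finset.finite_toSet _).prod hZfin).image _
  set M := Submodule.span ℤ T with hMdef
  have hMfg : M.FG := Submodule.fg_span hTfin
  have hnp : ∀ z ∈ Z, ∀ j ≤ m,
      npL (CongruenceSubgroup.Gamma0 N : Subgroup (GL (Fin 2) ℝ)) ((m : ℤ) + 2) j z ∈ M := by
    intro z hz j hj
    refine Submodule.subset_span ⟨(j, z), ⟨?_, hz⟩, rfl⟩
    simpa using Nat.lt_succ_of_le hj
  have heich : ∀ z ∈ Z, ∀ a b : ℤ,
      eichL (CongruenceSubgroup.Gamma0 N : Subgroup (GL (Fin 2) ℝ)) m z a b ∈ M :=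
    fun z hz a b => eichL_int_mem m z a b M (hnp z hz)
  -- the key claim
  have key : ∀ γ ∈ CongruenceSubgroup.Gamma0 N, ∀ a b : ℤ,
      perL (CongruenceSubgroup.Gamma0 N : Subgroup (GL (Fin 2) ℝ)) m (mapGL ℝ γ) a b ∈ M := by
    intro γ hγ
    rw [← hS] at hγ
    induction hγ using Subgroup.closure_induction with
    | mem s hs =>
      intro a b
      obtain ⟨a', b', ha', hb'⟩ := (isIntMat_mapGL s).act a b
      unfold perL
      rw [ha', hb']
      exact M.sub_mem (heich _ (Set.mem_insert_of_mem _ ⟨s, hs, rfl⟩) a' b')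
        (heich _ (Set.mem_insert _ _) a b)
    | one =>
      intro a b
      rw [map_one, perL_one]
      exact M.zero_mem
    | mul x y hx hy ihx ihy =>
      intro a b
      obtain ⟨a', b', ha', hb'⟩ := (isIntMat_mapGL y).act a b
      have hxΓ : mapGL ℝ x ∈ (CongruenceSubgroup.Gamma0 N : Subgroup (GL (Fin 2) ℝ)) :=
        Subgroup.mem_map_of_mem _ (hS ▸ hx)
      rw [map_mul, perL_mul m _ _ (det_mapGL_pos x) hxΓ, ha', hb']
      exact M.add_mem (ihx a' b') (ihy a b)
    | inv x hx ihx =>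
      intro a b
      obtain ⟨a', b', ha', hb'⟩ := (isIntMat_mapGL x⁻¹).act a b
      have hxΓ : mapGL ℝ x ∈ (CongruenceSubgroup.Gamma0 N : Subgroup (GL (Fin 2) ℝ)) :=
        Subgroup.mem_map_of_mem _ (hS ▸ hx)
      have h1 := perL_mul (Γ := (CongruenceSubgroup.Gamma0 N : Subgroup (GL (Fin 2) ℝ))) m
        (mapGL ℝ x) (mapGL ℝ x⁻¹) (det_mapGL_pos x) hxΓ a b
      rw [← map_mul, mul_inv_cancel, map_one, perL_one, ha', hb'] at h1
      have h2 : perL (CongruenceSubgroup.Gamma0 N : Subgroup (GL (Fin 2) ℝ)) m (mapGL ℝ x⁻¹) a b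
          = - perL (CongruenceSubgroup.Gamma0 N : Subgroup (GL (Fin 2) ℝ)) m (mapGL ℝ x) a' b' :=
        eq_neg_of_add_eq_zero_right h1.symm
      rw [h2]
      exact M.neg_mem (ihx a' b')
  refine fg_of_le_of_fg_int ?_ hMfg
  unfold periodLattice
  rw [Submodule.span_le]
  rintro φ ⟨γ, hγ, a, b, rfl⟩
  exact key γ hγ a b

end Fermat.Agent.S22
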