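import Fermat.Agent.S22.Lattice

/-!
# The period lattice separates points
-/

set_option autoImplicit false

namespace Fermat.Agent.S22

open Complex UpperHalfPlane Filter Topology Set Matrix.SpecialLinearGroup
open scoped Manifold ModularForm MatrixGroups Pointwise

/-- The function `(X, Y) ↦ Φ(z₀; a X + b Y, c X + d Y)` is a polynomial in two variables. -/
theorem exists_mvPoly_eich (m : ℕ) (φ : ℍ → ℂ) (z₀ : ℍ) (a b c d : ℂ) :
    ∃ q : MvPolynomial (Fin 2) ℂ, ∀ X Y : ℂ,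
      MvPolynomial.eval ![X, Y] q = eich m φ z₀ (a * X + b * Y) (c * X + d * Y) := by
  refine ⟨∑ j ∈ Finset.range (m + 1),
    (MvPolynomial.C ((m.choose j : ℂ)) *
      (MvPolynomial.C a * MvPolynomial.X 0 + MvPolynomial.C b * MvPolynomial.X 1) ^ j *
      (-(MvPolynomial.C c * MvPolynomial.X 0 + MvPolynomial.C d * MvPolynomial.X 1)) ^ (m - j)) *
      MvPolynomial.C (np (fun w => (w : ℂ) ^ (m - j) * φ w) z₀), fun X Y => ?_⟩
  rw [map_sum]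
  unfold eich
  refine Finset.sum_congr rfl fun j _ => ?_
  simp

section

variable {Γ : Subgroup (GL (Fin 2) ℝ)} [Γ.IsArithmetic] [Γ.HasDetOne]

theorem exists_mvPoly_perL (m : ℕ) (g : GL (Fin 2) ℝ) (f : CuspForm Γ ((m : ℤ) + 2)) :
    ∃ q : MvPolynomial (Fin 2) ℂ, ∀ X Y : ℂ,
      MvPolynomial.eval ![X, Y] q = perL Γ m g X Y f := by
  obtain ⟨q₁, hq₁⟩ := exists_mvPoly_eich m ⇑f (g • UpperHalfPlane.I)
    ((g 0 0 : ℝ) : ℂ) ((g 0 1 : ℝ) : ℂ) ((g 1 0 : ℝ) : ℂ) ((g 1 1 : ℝ) : ℂ)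
  obtain ⟨q₂, hq₂⟩ := exists_mvPoly_eich m ⇑f UpperHalfPlane.I 1 0 0 1
  refine ⟨q₁ - q₂, fun X Y => ?_⟩
  rw [map_sub, hq₁, hq₂, perL_apply]
  simp only [actX, actY, one_mul, zero_mul, add_zero, zero_add]

end

theorem periodLattice_separates (N : ℕ) [NeZero N] (m : ℕ)
    (f : CuspForm (CongruenceSubgroup.Gamma0 N : Subgroup (GL (Fin 2) ℝ)) ((m : ℤ) + 2))
    (h : ∀ φ ∈ periodLattice N m, φ f = 0) : f = 0 := by
  have hper : ∀ γ ∈ CongruenceSubgroup.Gamma0 N, ∀ X Y : ℂ,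
      perL (CongruenceSubgroup.Gamma0 N : Subgroup (GL (Fin 2) ℝ)) m (mapGL ℝ γ) X Y f = 0 := by
    intro γ hγ
    obtain ⟨q, hq⟩ := exists_mvPoly_perL m (mapGL ℝ γ) f
    have hq0 : q = 0 := mvPoly_eq_zero_of_int q fun a b => by
      rw [hq]
      exact h _ (perL_mem_periodLattice N m hγ a b)
    intro X Y
    rw [← hq, hq0, map_zero]
  apply eq_zero_of_diag_invariant m f
  intro γ hγ
  obtain ⟨γ₀, hγ₀, rfl⟩ := Subgroup.mem_map.mp hγ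
  funext z
  have h1 : (diag m ⇑f ∣[-(m : ℤ)] (mapGL ℝ γ₀)) z
      = eich m ⇑f ((mapGL ℝ γ₀) • z) (actX (mapGL ℝ γ₀) z 1) (actY (mapGL ℝ γ₀) z 1) :=
    diag_slash_SL m ⇑f γ₀ z
  rw [h1, eich_act_eq_add_perL m (mapGL ℝ γ₀) (det_mapGL_pos γ₀) hγ f z, hper γ₀ hγ₀, add_zero]
  rfl

end Fermat.Agent.S22
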