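import Fermat.Agent.S22.Lattice
import Fermat.Prelude.Def_CuspForm_HeckeAlgebra
import Fermat.Prelude.Sol.S_ModularForm_heckeT_slash_eq_self_of_mem_Gamma0

/-!
# The period lattice is stable under the Hecke operators

For `φ` in the period lattice of `Γ₀(N)` and weight `m + 2`, the functionals
`φ ∘ T_ℓ` (`ℓ ∤ N`) and `φ ∘ U_q` (`q ∣ N`) lie in the period lattice again.
-/

set_option autoImplicit false

namespace Fermat.Agent.S22.helper31

open Complex UpperHalfPlane Matrix.SpecialLinearGroup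
open scoped Manifold ModularForm MatrixGroups
open Fermat.Agent.S22
open P2MW.S_ModularForm_heckeT_slash_eq_self_of_mem_Gamma0.ModularForm.HeckeSlashInvariance

/-- Abstract Hecke stability: an operator `t` given by a finite sum of slashes by integral upper
triangular matrices `α i` of positive determinant, whose right cosets are permuted by `Γ₀(N)`,
preserves the period lattice under precomposition. -/
theorem comp_mem_periodLattice_of_cosets (N : ℕ) [NeZero N] (m : ℕ)
    {ι : Type*} [Fintype ι] (α : ι → GL (Fin 2) ℝ)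
    (hdet : ∀ i, 0 < (α i).val.det) (h10 : ∀ i, α i 1 0 = 0) (hint : ∀ i, IsIntMat (α i))
    (t : CuspForm (CongruenceSubgroup.Gamma0 N : Subgroup (GL (Fin 2) ℝ)) ((m : ℤ) + 2) →ₗ[ℂ]
      CuspForm (CongruenceSubgroup.Gamma0 N : Subgroup (GL (Fin 2) ℝ)) ((m : ℤ) + 2))
    (ht : ∀ f, (⇑(t f) : ℍ → ℂ) = ∑ i, (⇑f : ℍ → ℂ) ∣[(m : ℤ) + 2] α i)
    (hperm : ∀ γ ∈ CongruenceSubgroup.Gamma0 N, ∃ σ : Equiv.Perm ι,
      ∀ i, ∃ γ' ∈ CongruenceSubgroup.Gamma0 N, α i * mapGL ℝ γ = mapGL ℝ γ' * α (σ i))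
    (φ : CuspForm (CongruenceSubgroup.Gamma0 N : Subgroup (GL (Fin 2) ℝ)) ((m : ℤ) + 2) →ₗ[ℂ] ℂ)
    (hφ : φ ∈ periodLattice N m) : φ.comp t ∈ periodLattice N m := by
  classical
  -- evaluation of the Eichler integral of `t f`
  have heich : ∀ (f : CuspForm (CongruenceSubgroup.Gamma0 N : Subgroup (GL (Fin 2) ℝ))
      ((m : ℤ) + 2)) (z : ℍ) (X Y : ℂ),
      eich m ⇑(t f) z X Y = ∑ i, eich m ⇑f (α i • z) (actX (α i) X Y) (actY (α i) X Y) := by
    intro f z X Y
    have e : (⇑(t f) : ℍ → ℂ) = fun w => ∑ i ∈ Finset.univ, ((⇑f : ℍ → ℂ) ∣[(m : ℤ) + 2] α i) w := by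
      rw [ht f]
      funext w
      rw [Finset.sum_apply]
    rw [e, eich_sum Finset.univ
      (fun i _ => (isDH_cuspForm f).slash_upper _ (α i) (hdet i) (h10 i)) m z X Y]
    exact Finset.sum_congr rfl fun i _ =>
      eich_slash_upper (isDH_cuspForm f) m (α i) (hdet i) (h10 i) z X Y
  induction hφ using Submodule.span_induction with
  | mem φ hφ =>
    obtain ⟨γ, hγ, a, b, rfl⟩ := hφ
    obtain ⟨σ, hσ⟩ := hperm γ hγ
    choose γ' hγ' hmul using hσ
    have hint' : ∀ i, ∃ a' b' : ℤ, actX (α (σ i)) a b = (a' : ℂ) ∧ actY (α (σ i)) a b = (b' : ℂ) :=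
      fun i => (hint (σ i)).act a b
    choose a' b' ha' hb' using hint'
    have key : (perL (CongruenceSubgroup.Gamma0 N : Subgroup (GL (Fin 2) ℝ)) m (mapGL ℝ γ) a b).comp t
        = ∑ i, perL (CongruenceSubgroup.Gamma0 N : Subgroup (GL (Fin 2) ℝ)) m (mapGL ℝ (γ' i))
            (a' i) (b' i) := by
      apply LinearMap.ext
      intro f
      rw [LinearMap.comp_apply, perL_apply, heich, heich, LinearMap.sum_apply, ← Finset.sum_sub_distrib]
      have hterm : ∀ i, eich m ⇑f (α i • mapGL ℝ γ • UpperHalfPlane.I)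
            (actX (α i) (actX (mapGL ℝ γ) a b) (actY (mapGL ℝ γ) a b))
            (actY (α i) (actX (mapGL ℝ γ) a b) (actY (mapGL ℝ γ) a b))
          = eich m ⇑f (α (σ i) • UpperHalfPlane.I) (actX (α (σ i)) a b) (actY (α (σ i)) a b)
            + perL (CongruenceSubgroup.Gamma0 N : Subgroup (GL (Fin 2) ℝ)) m (mapGL ℝ (γ' i))
                (a' i) (b' i) f := by
        intro i
        rw [← mul_smul, ← actX_mul, ← actY_mul, hmul i, mul_smul, actX_mul, actY_mul,
          eich_act_eq_add_perL m (mapGL ℝ (γ' i)) (det_mapGL_pos (γ' i))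
            (Subgroup.mem_map_of_mem (mapGL ℝ) (hγ' i)) f, ha' i, hb' i]
      rw [Finset.sum_congr rfl fun i _ => by rw [hterm i]]
      have hsum : ∑ i, eich m ⇑f (α (σ i) • UpperHalfPlane.I) (actX (α (σ i)) a b)
            (actY (α (σ i)) a b)
          = ∑ i, eich m ⇑f (α i • UpperHalfPlane.I) (actX (α i) a b) (actY (α i) a b) :=
        Equiv.sum_comp σ (fun i => eich m ⇑f (α i • UpperHalfPlane.I) (actX (α i) a b)
          (actY (α i) a b))
      simp only [add_sub_right_comm, Finset.sum_add_distrib, Finset.sum_sub_distrib]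
      rw [hsum]
      ring
    rw [key]
    exact Submodule.sum_mem _ fun i _ => perL_mem_periodLattice N m (hγ' i) (a' i) (b' i)
  | zero =>
    rw [LinearMap.zero_comp]
    exact Submodule.zero_mem _
  | add φ ψ _ _ hφ hψ =>
    rw [LinearMap.add_comp]
    exact Submodule.add_mem _ hφ hψ
  | smul n φ _ hφ =>
    have : (n • φ).comp t = n • φ.comp t := by
      apply LinearMap.ext
      intro f
      simp
    rw [this]
    exact Submodule.smul_mem _ n hφ

section instancesT

variable {N : ℕ} [NeZero N] (m : ℕ)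

theorem heckeRep_det_pos (p : ℕ) (x : OnePoint (ZMod p)) : 0 < (heckeRep p x).val.det := by
  induction x using OnePoint.rec with
  | infty =>
    rw [heckeRep_infty, ← Matrix.GeneralLinearGroup.val_det_apply]
    exact ModularForm.det_heckeDiagMatrix_pos p
  | coe j =>
    rw [heckeRep_coe, ← Matrix.GeneralLinearGroup.val_det_apply]
    exact ModularForm.det_heckeMatrix_pos p j.val

theorem heckeMatrix_one_zero (p j : ℕ) : ModularForm.heckeMatrix p j 1 0 = 0 := by
  rcases eq_or_ne p 0 with rfl | hp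
  · simp
  · have := ModularForm.val_heckeMatrix hp j
    have h2 := congrFun (congrFun this 1) 0
    simpa using h2

theorem heckeDiagMatrix_one_zero (p : ℕ) : ModularForm.heckeDiagMatrix p 1 0 = 0 := by
  rcases eq_or_ne p 0 with rfl | hp
  · simp
  · have := ModularForm.val_heckeDiagMatrix hp
    have h2 := congrFun (congrFun this 1) 0
    simpa using h2

theorem isIntMat_heckeMatrix (p j : ℕ) : IsIntMat (ModularForm.heckeMatrix p j) := by
  rcases eq_or_ne p 0 with rfl | hp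
  · intro i k
    rw [ModularForm.heckeMatrix_zero]
    refine ⟨if i = k then 1 else 0, ?_⟩
    simp [Matrix.one_apply]
  · have := ModularForm.val_heckeMatrix hp j
    intro i k
    have h2 := congrFun (congrFun this i) k
    rw [h2]
    fin_cases i <;> fin_cases k
    · exact ⟨1, by simp⟩
    · exact ⟨j, by simp⟩
    · exact ⟨0, by simp⟩
    · exact ⟨p, by simp⟩

theorem isIntMat_heckeDiagMatrix (p : ℕ) : IsIntMat (ModularForm.heckeDiagMatrix p) := by
  rcases eq_or_ne p 0 with rfl | hp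
  · intro i k
    rw [ModularForm.heckeDiagMatrix_zero]
    refine ⟨if i = k then 1 else 0, ?_⟩
    simp [Matrix.one_apply]
  · have := ModularForm.val_heckeDiagMatrix hp
    intro i k
    have h2 := congrFun (congrFun this i) k
    rw [h2]
    fin_cases i <;> fin_cases k
    · exact ⟨p, by simp⟩
    · exact ⟨0, by simp⟩
    · exact ⟨0, by simp⟩
    · exact ⟨1, by simp⟩

theorem heckeRep_one_zero (p : ℕ) (x : OnePoint (ZMod p)) : heckeRep p x 1 0 = 0 := by
  induction x using OnePoint.rec with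
  | infty => rw [heckeRep_infty]; exact heckeDiagMatrix_one_zero p
  | coe j => rw [heckeRep_coe]; exact heckeMatrix_one_zero p j.val

theorem isIntMat_heckeRep (p : ℕ) (x : OnePoint (ZMod p)) : IsIntMat (heckeRep p x) := by
  induction x using OnePoint.rec with
  | infty => rw [heckeRep_infty]; exact isIntMat_heckeDiagMatrix p
  | coe j => rw [heckeRep_coe]; exact isIntMat_heckeMatrix p j.val

/-- The period lattice is stable under `T_ℓ`, `ℓ ∤ N`. -/
theorem periodLattice_comp_heckeT (N : ℕ) [NeZero N] (m : ℕ) {ℓ : ℕ} (hℓ : ℓ.Prime)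
    (hℓN : ¬ ℓ ∣ N)
    (φ : CuspForm (CongruenceSubgroup.Gamma0 N : Subgroup (GL (Fin 2) ℝ)) ((m : ℤ) + 2) →ₗ[ℂ] ℂ)
    (hφ : φ ∈ periodLattice N m) :
    φ.comp (CuspForm.heckeTLin ((m : ℤ) + 2) hℓ hℓN) ∈ periodLattice N m := by
  haveI : Fact ℓ.Prime := ⟨hℓ⟩
  haveI : NeZero ℓ := ⟨hℓ.ne_zero⟩
  refine comp_mem_periodLattice_of_cosets N m (heckeRep ℓ) (heckeRep_det_pos ℓ)
    (heckeRep_one_zero ℓ) (isIntMat_heckeRep ℓ) _ ?_ ?_ φ hφ
  · intro f
    rw [CuspForm.coe_heckeTLin_apply, heckeT_eq_sum_onePoint]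
  · intro γ hγ
    have hcN : (N : ℤ) ∣ γ 1 0 :=
      (ZMod.intCast_zmod_eq_zero_iff_dvd _ _).mp (CongruenceSubgroup.Gamma0_mem.mp hγ)
    refine ⟨MulAction.toPerm (redMatrix ℓ γ), fun x => ?_⟩
    obtain ⟨g', hg', hmul⟩ := heckeRep_mul hℓN γ hcN x
    exact ⟨g', CongruenceSubgroup.Gamma0_mem.mpr ((ZMod.intCast_zmod_eq_zero_iff_dvd _ _).mpr hg'),
      hmul⟩

/-- The period lattice is stable under `U_q`, `q ∣ N`. -/
theorem periodLattice_comp_heckeU (N : ℕ) [NeZero N] (m : ℕ) {q : ℕ} (hqN : q ∣ N)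
    (φ : CuspForm (CongruenceSubgroup.Gamma0 N : Subgroup (GL (Fin 2) ℝ)) ((m : ℤ) + 2) →ₗ[ℂ] ℂ)
    (hφ : φ ∈ periodLattice N m) :
    φ.comp (CuspForm.heckeULin ((m : ℤ) + 2) hqN) ∈ periodLattice N m := by
  have hq0 : q ≠ 0 := fun h => NeZero.ne N (by simpa [h] using hqN)
  haveI : NeZero q := ⟨hq0⟩
  refine comp_mem_periodLattice_of_cosets N m (fun x : ZMod q => ModularForm.heckeMatrix q x.val)
    (fun x => ?_) (fun x => heckeMatrix_one_zero q x.val) (fun x => isIntMat_heckeMatrix q x.val)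
    _ ?_ ?_ φ hφ
  · rw [← Matrix.GeneralLinearGroup.val_det_apply]
    exact ModularForm.det_heckeMatrix_pos q x.val
  · intro f
    rw [CuspForm.coe_heckeULin_apply, heckeU_eq_sum_zmod]
  · intro γ hγ
    have hcN : (N : ℤ) ∣ γ 1 0 :=
      (ZMod.intCast_zmod_eq_zero_iff_dvd _ _).mp (CongruenceSubgroup.Gamma0_mem.mp hγ)
    have hc : (q : ℤ) ∣ γ 1 0 := (Int.natCast_dvd_natCast.mpr hqN).trans hcN
    refine ⟨affinePerm γ ((ZMod.intCast_zmod_eq_zero_iff_dvd _ _).mpr hc), fun x => ?_⟩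
    obtain ⟨g', hg', hmul⟩ := heckeMatrix_mul_of_dvd γ hc x
    refine ⟨g', ?_, hmul⟩
    rw [CongruenceSubgroup.Gamma0_mem, hg']
    push_cast
    rw [CongruenceSubgroup.Gamma0_mem.mp hγ, mul_zero]

end instancesT

end Fermat.Agent.S22.helper31
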