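import Mathlib
import Fermat.Prelude.Def_CuspForm_HeckeAlgebra

/-!
# S22 helper (helper31): weights `k ≤ 1`

For `k ≤ 1` every cusp form on `Γ₀(N)` vanishes, hence the Hecke algebra is the zero ring.
-/

set_option autoImplicit false

namespace Fermat.Agent.S22.helper31

open scoped MatrixGroups ModularForm
open UpperHalfPlane CongruenceSubgroup

theorem cuspForm_eq_zero_of_neg_weight (N : ℕ) [NeZero N] {k : ℤ} (hk : k < 0)
    (f : CuspForm (Gamma0 N) k) : f = 0 := by
  have h := ModularForm.isZero_of_neg_weight hk (CuspForm.toModularFormₗ f)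
  exact CuspForm.toModularFormₗ_injective (by simpa using h)

theorem cuspForm_eq_zero_of_weight_zero (N : ℕ) [NeZero N]
    (f : CuspForm (Gamma0 N) 0) : f = 0 := by
  obtain ⟨c, hc⟩ := ModularForm.eq_const_of_weight_zero (CuspForm.toModularFormₗ f)
  have hf : (f : ℍ → ℂ) = Function.const ℍ c := hc
  have hz : IsZeroAtImInfty (f : ℍ → ℂ) := CuspFormClass.zero_at_infty f
  rw [hf] at hz
  have hc0 : c = 0 := by
    have h1 : Filter.Tendsto (Function.const ℍ c) atImInfty (nhds c) := tendsto_const_nhds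
    exact tendsto_nhds_unique h1 hz
  apply DFunLike.coe_injective
  rw [hf, hc0]
  rfl

theorem neg_one_mem_Gamma0 (N : ℕ) : (-1 : SL(2, ℤ)) ∈ Gamma0 N := by
  rw [Gamma0_mem]
  simp

theorem neg_one_mem_map_Gamma0 (N : ℕ) :
    (-1 : GL (Fin 2) ℝ) ∈ Subgroup.map (Matrix.SpecialLinearGroup.mapGL ℝ) (Gamma0 N) := by
  refine ⟨-1, neg_one_mem_Gamma0 N, ?_⟩
  ext i j
  simp [Matrix.SpecialLinearGroup.mapGL]

theorem cuspForm_eq_zero_of_odd_weight (N : ℕ) [NeZero N] {k : ℤ} (hk : Odd k)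
    (f : CuspForm (Gamma0 N) k) : f = 0 := by
  have h := ModularForm.eq_zero_of_neg_one_mem (neg_one_mem_map_Gamma0 N) hk
    (CuspForm.toModularFormₗ f)
  exact CuspForm.toModularFormₗ_injective (by simpa using h)

/-- For `k ≤ 1`, all cusp forms of weight `k` on `Γ₀(N)` vanish. -/
theorem cuspForm_eq_zero_of_weight_le_one (N : ℕ) [NeZero N] {k : ℤ} (hk : k ≤ 1)
    (f : CuspForm (Gamma0 N) k) : f = 0 := by
  rcases lt_trichotomy k 0 with h | h | h
  · exact cuspForm_eq_zero_of_neg_weight N h f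
  · subst h
    exact cuspForm_eq_zero_of_weight_zero N f
  · obtain rfl : k = 1 := by omega
    exact cuspForm_eq_zero_of_odd_weight N (by decide) f

/-- S22 for weights `k ≤ 1`. -/
theorem finite_heckeAlgebra_of_weight_le_one (N : ℕ) [NeZero N] {k : ℤ} (hk : k ≤ 1)
    (S : Set ℕ) : Module.Finite ℤ (CuspForm.heckeAlgebra N k S) := by
  haveI : Subsingleton (CuspForm (Gamma0 N) k) :=
    ⟨fun f g => by rw [cuspForm_eq_zero_of_weight_le_one N hk f,
      cuspForm_eq_zero_of_weight_le_one N hk g]⟩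
  haveI : Subsingleton (Module.End ℂ (CuspForm (Gamma0 N) k)) :=
    ⟨fun a b => LinearMap.ext fun x => Subsingleton.elim _ _⟩
  haveI : Subsingleton (CuspForm.heckeAlgebra N k S) :=
    ⟨fun a b => Subtype.ext (Subsingleton.elim _ _)⟩
  exact Module.Finite.of_surjective (0 : ℤ →ₗ[ℤ] CuspForm.heckeAlgebra N k S)
    (fun y => ⟨0, Subsingleton.elim _ _⟩)

end Fermat.Agent.S22.helper31
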