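import Mathlib

/-!
# Elementary polynomial lemmas
-/

set_option autoImplicit false

namespace Fermat.Agent.S22

open Filter Topology Polynomial

/-- A polynomial tending to zero along the positive imaginary axis is zero. -/
theorem poly_eq_zero_of_tendsto (p : Polynomial ℂ)
    (h : Tendsto (fun y : ℝ => p.eval ((y : ℂ) * Complex.I)) atTop (𝓝 0)) : p = 0 := by
  by_cases hdeg : 0 < p.degree
  · exfalso
    have hz : Tendsto (fun y : ℝ => ‖(y : ℂ) * Complex.I‖) atTop atTop := by
      have : (fun y : ℝ => ‖(y : ℂ) * Complex.I‖) = fun y : ℝ => |y| := by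
        funext y
        simp
      rw [this]
      exact tendsto_abs_atTop_atTop
    have h1 := p.tendsto_norm_atTop hdeg hz
    have h2 : Tendsto (fun y : ℝ => ‖p.eval ((y : ℂ) * Complex.I)‖) atTop (𝓝 0) := by
      simpa using h.norm
    exact not_tendsto_nhds_of_tendsto_atTop h1 0 h2
  · have hle : p.degree ≤ 0 := not_lt.mp hdeg
    rw [Polynomial.eq_C_of_degree_le_zero hle] at h ⊢
    simp only [Polynomial.eval_C] at h
    have : p.coeff 0 = 0 := tendsto_nhds_unique tendsto_const_nhds h
    rw [this, Polynomial.C_0]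

/-- A polynomial with a nonzero period is constant. -/
theorem poly_eval_eq_of_periodic (p : Polynomial ℂ) (w : ℂ) (hw : w ≠ 0)
    (h : ∀ x : ℂ, p.eval (x + w) = p.eval x) (x : ℂ) : p.eval x = p.eval 0 := by
  have hn : ∀ n : ℕ, p.eval ((n : ℂ) * w) = p.eval 0 := by
    intro n
    induction n with
    | zero => simp
    | succ n ih =>
      have : ((n + 1 : ℕ) : ℂ) * w = (n : ℂ) * w + w := by push_cast; ring
      rw [this, h, ih]
  have hq : p - Polynomial.C (p.eval 0) = 0 := by
    apply Polynomial.eq_zero_of_infinite_isRoot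
    have hinj : Function.Injective (fun n : ℕ => (n : ℂ) * w) := by
      intro a b hab
      have := mul_right_cancel₀ hw hab
      exact_mod_cast this
    refine Set.Infinite.mono ?_ (Set.infinite_range_of_injective hinj)
    rintro _ ⟨n, rfl⟩
    simp [Polynomial.IsRoot, hn n]
  have := congrArg (Polynomial.eval x) hq
  simpa [sub_eq_zero] using this

/-- A polynomial in two variables vanishing at all integer points is zero. -/
theorem mvPoly_eq_zero_of_int (q : MvPolynomial (Fin 2) ℂ)
    (h : ∀ a b : ℤ, MvPolynomial.eval ![(a : ℂ), (b : ℂ)] q = 0) : q = 0 := by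
  have hinf : (Set.range (Int.cast : ℤ → ℂ)).Infinite :=
    Set.infinite_range_of_injective Int.cast_injective
  refine MvPolynomial.funext_set (fun _ => Set.range (Int.cast : ℤ → ℂ)) (fun _ => hinf) ?_
  intro x hx
  obtain ⟨a, ha⟩ := hx 0 (Set.mem_univ _)
  obtain ⟨b, hb⟩ := hx 1 (Set.mem_univ _)
  have hxe : x = ![(a : ℂ), (b : ℂ)] := by
    funext i
    fin_cases i
    · simpa using ha.symm
    · simpa using hb.symm
  rw [hxe, h a b]
  simp

end Fermat.Agent.S22
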