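import Fermat.Agent.S22.Diag
import Fermat.Agent.S22.PolyLemmas
import Fermat.Prelude.Thm_Subgroup_IsArithmetic_exists_nat_mem_strictPeriods_conj

/-!
# Boundedness at the cusps of the diagonal Eichler integral
-/

set_option autoImplicit false

namespace Fermat.Agent.S22

open Complex UpperHalfPlane Filter Topology Set Matrix.SpecialLinearGroup
open scoped Manifold ModularForm MatrixGroups Pointwise

theorem isDH_of_cuspFormClass {Γ : Subgroup (GL (Fin 2) ℝ)} {k : ℤ} {F : Type*} [FunLike F ℍ ℂ]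
    [CuspFormClass F Γ k] (f : F) {h : ℝ} (hh : 0 < h) (hΓ : h ∈ Γ.strictPeriods) :
    IsDH (⇑f) := by
  refine ⟨CuspFormClass.holo f, ?_⟩
  have hO := CuspFormClass.exp_decay_atImInfty f hh hΓ
  obtain ⟨C, hC⟩ := hO.bound
  rw [Filter.Eventually, atImInfty_mem] at hC
  obtain ⟨A, hA⟩ := hC
  intro B
  refine ⟨C, 2 * Real.pi / h, A, by positivity, fun z _ hz => ?_⟩
  have h1 := hA z hz
  simp only [Set.mem_ofPred_eq, Real.norm_eq_abs, Real.abs_exp] at h1
  convert h1 using 3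
  ring

theorem isDH_slash_SL {Γ : Subgroup (GL (Fin 2) ℝ)} [Γ.IsArithmetic] {k : ℤ}
    (f : CuspForm Γ k) (g : SL(2, ℤ)) : IsDH (⇑f ∣[k] g) := by
  obtain ⟨M, hM, hper⟩ := Subgroup.IsArithmetic.exists_nat_mem_strictPeriods_conj Γ
  have hmem : (M : ℝ) ∈ (ConjAct.toConjAct (mapGL ℝ g)⁻¹ • Γ).strictPeriods := by
    have := hper g⁻¹
    simpa using this
  have := isDH_of_cuspFormClass (CuspForm.translate f (mapGL ℝ g)) (h := M)
    (by exact_mod_cast hM) hmem
  exact this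

theorem isDH_cuspForm {Γ : Subgroup (GL (Fin 2) ℝ)} [Γ.IsArithmetic] {k : ℤ}
    (f : CuspForm Γ k) : IsDH (⇑f) := by
  have := isDH_slash_SL f 1
  have e : (⇑f ∣[k] (1 : SL(2, ℤ))) = ⇑f := by
    rw [ModularForm.SL_slash]
    simp
  rwa [e] at this

/-- A slash-invariant function has periodic translates. -/
theorem periodic_slash_of_invariant {Γ : Subgroup (GL (Fin 2) ℝ)} [Γ.IsArithmetic] {w : ℤ}
    (h : ℍ → ℂ) (hinv : ∀ γ ∈ Γ, h ∣[w] γ = h) (g : SL(2, ℤ)) :
    ∃ M : ℕ, 0 < M ∧ Function.Periodic ((h ∣[w] g) ∘ ofComplex) (M : ℂ) := by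
  obtain ⟨M, hM, hper⟩ := Subgroup.IsArithmetic.exists_nat_mem_strictPeriods_conj Γ
  have hmem : (M : ℝ) ∈ (ConjAct.toConjAct (mapGL ℝ g)⁻¹ • Γ).strictPeriods := by
    have := hper g⁻¹
    simpa using this
  let hS : SlashInvariantForm Γ w := { toFun := h, slash_action_eq' := hinv }
  have := SlashInvariantFormClass.periodic_comp_ofComplex
    (SlashInvariantForm.translate hS (mapGL ℝ g)) hmem
  exact ⟨M, hM, fun x => this x⟩

/-- Boundedness on a strip plus periodicity gives boundedness at `i∞`. -/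
theorem isBoundedAtImInfty_of_periodic_of_strip (D : ℍ → ℂ) (M : ℕ) (hM : 0 < M)
    (hper : Function.Periodic (D ∘ ofComplex) (M : ℂ)) (K A : ℝ)
    (hstrip : ∀ z : ℍ, |z.re| ≤ M → A ≤ z.im → ‖D z‖ ≤ K) : IsBoundedAtImInfty D := by
  rw [isBoundedAtImInfty_iff]
  refine ⟨K, A, fun z hz => ?_⟩
  have hMpos : (0 : ℝ) < M := by exact_mod_cast hM
  set n : ℤ := ⌊z.re / M⌋ with hn
  set w : ℂ := (z : ℂ) - (n : ℂ) * (M : ℂ) with hw
  have hwim : w.im = z.im := by
    simp [hw, UpperHalfPlane.coe_im]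
  have hwre : w.re = z.re - n * M := by
    simp [hw, UpperHalfPlane.coe_re]
  have hwpos : 0 < w.im := by rw [hwim]; exact z.im_pos
  have h1 : (n : ℝ) ≤ z.re / M := Int.floor_le _
  have h2 : z.re / M < n + 1 := Int.lt_floor_add_one _
  rw [le_div_iff₀ hMpos] at h1
  rw [div_lt_iff₀ hMpos] at h2
  have hre : |(⟨w, hwpos⟩ : ℍ).re| ≤ M := by
    show |w.re| ≤ M
    rw [hwre, abs_le]
    constructor <;> nlinarith
  have him : A ≤ (⟨w, hwpos⟩ : ℍ).im := by
    show A ≤ w.im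
    rw [hwim]; exact hz
  have key := hstrip ⟨w, hwpos⟩ hre him
  have e1 : D z = (D ∘ ofComplex) (w + (n : ℂ) * (M : ℂ)) := by
    have : w + (n : ℂ) * (M : ℂ) = (z : ℂ) := by rw [hw]; ring
    rw [this, Function.comp_apply, ofComplex_apply]
  have e2 : (D ∘ ofComplex) (w + (n : ℂ) * (M : ℂ)) = (D ∘ ofComplex) w := by
    have := hper.int_mul n w
    exact this
  have e3 : (D ∘ ofComplex) w = D ⟨w, hwpos⟩ := by
    rw [Function.comp_apply, ofComplex_apply_of_im_pos hwpos]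
  rw [e1, e2, e3]
  exact key

/-- The function `x ↦ Φ(z₀; a x + b, c x + d)` is a polynomial in `x`. -/
theorem exists_poly_eich (m : ℕ) (φ : ℍ → ℂ) (z₀ : ℍ) (a b c d : ℂ) :
    ∃ p : Polynomial ℂ, ∀ x : ℂ, p.eval x = eich m φ z₀ (a * x + b) (c * x + d) := by
  refine ⟨∑ j ∈ Finset.range (m + 1),
    (Polynomial.C ((m.choose j : ℂ)) * (Polynomial.C a * Polynomial.X + Polynomial.C b) ^ j *
      (-(Polynomial.C c * Polynomial.X + Polynomial.C d)) ^ (m - j)) *
      Polynomial.C (np (fun w => (w : ℂ) ^ (m - j) * φ w) z₀), fun x => ?_⟩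
  rw [Polynomial.eval_finsetSum]
  unfold eich
  refine Finset.sum_congr rfl fun j _ => ?_
  simp

/-- slash of the diagonal by an element of `SL(2, ℤ)` -/
theorem diag_slash_SL (m : ℕ) (φ : ℍ → ℂ) (g : SL(2, ℤ)) (z : ℍ) :
    (diag m φ ∣[-(m : ℤ)] g) z
      = eich m φ ((mapGL ℝ g) • z) (actX (mapGL ℝ g) z 1) (actY (mapGL ℝ g) z 1) := by
  have hdet : 0 < (mapGL ℝ g : GL (Fin 2) ℝ).det.val := by simp
  have hz : denom (mapGL ℝ g) z ≠ 0 := denom_ne_zero _ z
  have e1 : actX (mapGL ℝ g) z 1 = denom (mapGL ℝ g) z * (((mapGL ℝ g) • z : ℍ) : ℂ) := by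
    rw [coe_smul_of_det_pos hdet]
    have h1 : denom (mapGL ℝ g) z * (num (mapGL ℝ g) z / denom (mapGL ℝ g) z)
        = num (mapGL ℝ g) z := by
      field_simp
    rw [h1]
    simp only [actX, num]
    ring
  have e2 : actY (mapGL ℝ g) z 1 = denom (mapGL ℝ g) z * 1 := by
    simp only [actY, denom]
    ring
  rw [e1, e2, eich_homog, ModularForm.SL_slash_apply, neg_neg, zpow_natCast]
  unfold diag
  rw [mul_comm]
  rfl

end Fermat.Agent.S22
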