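import Fermat.Agent.S22.Eichler

/-!
# Invariance properties of Eichler integrals
-/

set_option autoImplicit false

namespace Fermat.Agent.S22

open Complex UpperHalfPlane Filter Topology Set
open scoped Manifold ModularForm MatrixGroups

/-- For a function invariant under `g`, the difference `Φ(g z; g v) - Φ(z; v)` does not depend
on `z`. -/
theorem eich_act_sub_indep {φ : ℍ → ℂ} (hφ : IsDH φ) (m : ℕ) (g : GL (Fin 2) ℝ)
    (hg : 0 < g.val.det) (hinv : φ ∣[(m : ℤ) + 2] g = φ) (X Y : ℂ) (z w : ℍ) :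
    eich m φ (g • z) (actX g X Y) (actY g X Y) - eich m φ z X Y
      = eich m φ (g • w) (actX g X Y) (actY g X Y) - eich m φ w X Y := by
  have h1 : IsPrim (fun z => eich m φ (g • z) (actX g X Y) (actY g X Y))
      (fun z => φ z * (X - (z : ℂ) * Y) ^ m) := by
    have := IsPrim.comp_act (F := fun z => eich m φ z (actX g X Y) (actY g X Y)) m g hg X Y
      (eich_isPrim hφ m _ _)
    rw [hinv] at this
    exact this
  have h2 := eich_isPrim hφ m X Y
  have e := h1.eq_add_const h2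
  rw [e z, e w]
  ring

/-- slash by an upper triangular matrix of positive determinant -/
theorem slash_upper_apply (φ : ℍ → ℂ) (k : ℤ) (g : GL (Fin 2) ℝ) (hg : 0 < g.val.det)
    (hg10 : g 1 0 = 0) (z : ℍ) :
    (φ ∣[k] g) z = ((g.val.det : ℂ) ^ (k - 1) * (g 1 1 : ℂ) ^ (-k)) * φ (g • z) := by
  rw [ModularForm.slash_apply]
  have hσ : σ g (φ (g • z)) = φ (g • z) := by
    simp [σ, hg]
  rw [hσ, Matrix.GeneralLinearGroup.val_det_apply, abs_of_pos hg]
  have : denom g z = (g 1 1 : ℂ) := by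
    simp [denom, hg10]
  rw [this]
  ring

theorem coe_smul_upper (g : GL (Fin 2) ℝ) (hg : 0 < g.val.det) (hg10 : g 1 0 = 0) (z : ℍ) :
    ((g • z : ℍ) : ℂ) = ((g 0 0 / g 1 1 : ℝ) : ℂ) * (z : ℂ) + ((g 0 1 / g 1 1 : ℝ) : ℂ) := by
  have hdet : 0 < g.det.val := by
    rw [Matrix.GeneralLinearGroup.val_det_apply]; exact hg
  rw [coe_smul_of_det_pos hdet]
  have h11 : g 1 1 ≠ 0 := by
    intro h
    rw [Matrix.det_fin_two, hg10, h] at hg
    simp at hg
  have h11' : (g 1 1 : ℂ) ≠ 0 := Complex.ofReal_ne_zero.mpr h11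
  simp only [num, denom, hg10]
  push_cast
  rw [zero_mul, zero_add, div_mul_eq_mul_div, ← add_div]

theorem upper_ratio_pos (g : GL (Fin 2) ℝ) (hg : 0 < g.val.det) (hg10 : g 1 0 = 0) :
    0 < g 0 0 / g 1 1 := by
  rw [Matrix.det_fin_two, hg10, mul_zero, sub_zero] at hg
  rcases (mul_pos_iff.mp hg) with ⟨h1, h2⟩ | ⟨h1, h2⟩
  · exact div_pos h1 h2
  · exact div_pos_of_neg_of_neg h1 h2

theorem SED.comp_upper {F : ℍ → ℂ} (hF : SED F) (g : GL (Fin 2) ℝ) (hg : 0 < g.val.det)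
    (hg10 : g 1 0 = 0) : SED (fun z => F (g • z)) :=
  hF.comp_affine (fun z => g • z) _ _ (upper_ratio_pos g hg hg10) (coe_smul_upper g hg hg10)

theorem IsDH.slash_upper {φ : ℍ → ℂ} (hφ : IsDH φ) (k : ℤ) (g : GL (Fin 2) ℝ)
    (hg : 0 < g.val.det) (hg10 : g 1 0 = 0) : IsDH (φ ∣[k] g) := by
  refine ⟨hφ.holo.slash k g, ?_⟩
  have h1 := (hφ.sed.comp_upper g hg hg10).const_mul
    ((g.val.det : ℂ) ^ (k - 1) * (g 1 1 : ℂ) ^ (-k))
  have e : (φ ∣[k] g) = fun z => ((g.val.det : ℂ) ^ (k - 1) * (g 1 1 : ℂ) ^ (-k)) * φ (g • z) :=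
    funext fun z => slash_upper_apply φ k g hg hg10 z
  rw [e]
  exact h1

/-- Eichler integral of a slash by an upper triangular matrix. -/
theorem eich_slash_upper {φ : ℍ → ℂ} (hφ : IsDH φ) (m : ℕ) (g : GL (Fin 2) ℝ)
    (hg : 0 < g.val.det) (hg10 : g 1 0 = 0) (z : ℍ) (X Y : ℂ) :
    eich m (φ ∣[(m : ℤ) + 2] g) z X Y = eich m φ (g • z) (actX g X Y) (actY g X Y) := by
  symm
  refine eich_eq_of_isPrim_sed (F := fun z => eich m φ (g • z) (actX g X Y) (actY g X Y))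
    (hφ.slash_upper _ g hg hg10) m X Y ?_ ?_ z
  · exact IsPrim.comp_act (F := fun z => eich m φ z (actX g X Y) (actY g X Y)) m g hg X Y
      (eich_isPrim hφ m _ _)
  · exact (eich_sed hφ m _ _).comp_upper g hg hg10

end Fermat.Agent.S22
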