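import Fermat.Agent.S22.Primitive

/-!
# Strip-wise exponential decay and polynomial growth on the upper half-plane
-/

set_option autoImplicit false

namespace Fermat.Agent.S22

open Complex UpperHalfPlane Filter Topology Set

/-- Strip-wise exponential decay: on every vertical strip `|re z| ≤ B`, the function decays
exponentially as `im z → ∞`. -/
def SED (F : ℍ → ℂ) : Prop :=
  ∀ B : ℝ, ∃ C c A : ℝ, 0 < c ∧
    ∀ z : ℍ, |z.re| ≤ B → A ≤ z.im → ‖F z‖ ≤ C * Real.exp (-c * z.im)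

/-- Strip-wise polynomial growth. -/
def SPG (Q : ℍ → ℂ) : Prop :=
  ∀ B : ℝ, ∃ (K : ℝ) (n : ℕ) (A : ℝ),
    ∀ z : ℍ, |z.re| ≤ B → A ≤ z.im → ‖Q z‖ ≤ K * z.im ^ n

theorem SED.normal {F : ℍ → ℂ} (hF : SED F) (B : ℝ) :
    ∃ C c A : ℝ, 0 ≤ C ∧ 0 < c ∧ 1 ≤ A ∧
      ∀ z : ℍ, |z.re| ≤ B → A ≤ z.im → ‖F z‖ ≤ C * Real.exp (-c * z.im) := by
  obtain ⟨C, c, A, hc, h⟩ := hF B
  refine ⟨|C|, c, max A 1, abs_nonneg _, hc, le_max_right _ _, fun z hz hA => ?_⟩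
  refine (h z hz ((le_max_left _ _).trans hA)).trans ?_
  exact mul_le_mul_of_nonneg_right (le_abs_self C) (Real.exp_pos _).le

theorem SPG.normal {Q : ℍ → ℂ} (hQ : SPG Q) (B : ℝ) :
    ∃ (K : ℝ) (n : ℕ) (A : ℝ), 0 ≤ K ∧ 1 ≤ A ∧
      ∀ z : ℍ, |z.re| ≤ B → A ≤ z.im → ‖Q z‖ ≤ K * z.im ^ n := by
  obtain ⟨K, n, A, h⟩ := hQ B
  refine ⟨|K|, n, max A 1, abs_nonneg _, le_max_right _ _, fun z hz hA => ?_⟩
  refine (h z hz ((le_max_left _ _).trans hA)).trans ?_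
  exact mul_le_mul_of_nonneg_right (le_abs_self K) (pow_nonneg z.im_pos.le _)

theorem SED.zero : SED (fun _ => (0 : ℂ)) := by
  intro B
  refine ⟨0, 1, 0, one_pos, fun z _ _ => ?_⟩
  simp

theorem SED.add {F G : ℍ → ℂ} (hF : SED F) (hG : SED G) : SED (fun z => F z + G z) := by
  intro B
  obtain ⟨C₁, c₁, A₁, hC₁, hc₁, hA₁, h₁⟩ := hF.normal B
  obtain ⟨C₂, c₂, A₂, hC₂, hc₂, hA₂, h₂⟩ := hG.normal B
  refine ⟨C₁ + C₂, min c₁ c₂, max A₁ A₂, lt_min hc₁ hc₂, fun z hz hA => ?_⟩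
  have hy : 0 ≤ z.im := z.im_pos.le
  have e₁ : Real.exp (-c₁ * z.im) ≤ Real.exp (-(min c₁ c₂) * z.im) := by
    apply Real.exp_le_exp.mpr
    have : min c₁ c₂ ≤ c₁ := min_le_left _ _
    nlinarith
  have e₂ : Real.exp (-c₂ * z.im) ≤ Real.exp (-(min c₁ c₂) * z.im) := by
    apply Real.exp_le_exp.mpr
    have : min c₁ c₂ ≤ c₂ := min_le_right _ _
    nlinarith
  calc ‖F z + G z‖ ≤ ‖F z‖ + ‖G z‖ := norm_add_le _ _
    _ ≤ C₁ * Real.exp (-c₁ * z.im) + C₂ * Real.exp (-c₂ * z.im) :=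
        add_le_add (h₁ z hz ((le_max_left _ _).trans hA)) (h₂ z hz ((le_max_right _ _).trans hA))
    _ ≤ C₁ * Real.exp (-(min c₁ c₂) * z.im) + C₂ * Real.exp (-(min c₁ c₂) * z.im) :=
        add_le_add (mul_le_mul_of_nonneg_left e₁ hC₁) (mul_le_mul_of_nonneg_left e₂ hC₂)
    _ = (C₁ + C₂) * Real.exp (-(min c₁ c₂) * z.im) := by ring

theorem SED.const_mul {F : ℍ → ℂ} (hF : SED F) (a : ℂ) : SED (fun z => a * F z) := by
  intro B
  obtain ⟨C, c, A, hC, hc, hA, h⟩ := hF.normal B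
  refine ⟨‖a‖ * C, c, A, hc, fun z hz hAz => ?_⟩
  rw [norm_mul, mul_assoc]
  exact mul_le_mul_of_nonneg_left (h z hz hAz) (norm_nonneg _)

theorem SED.neg {F : ℍ → ℂ} (hF : SED F) : SED (fun z => -F z) := by
  have := hF.const_mul (-1)
  simpa using this

theorem SED.sub {F G : ℍ → ℂ} (hF : SED F) (hG : SED G) : SED (fun z => F z - G z) := by
  have := hF.add hG.neg
  simpa [sub_eq_add_neg] using this

theorem SED.sum {ι : Type*} (s : Finset ι) {F : ι → ℍ → ℂ} (hF : ∀ i ∈ s, SED (F i)) :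
    SED (fun z => ∑ i ∈ s, F i z) := by
  classical
  induction s using Finset.induction_on with
  | empty => simpa using SED.zero
  | insert a s ha ih =>
    have h1 : SED (F a) := hF a (Finset.mem_insert_self _ _)
    have h2 := ih (fun i hi => hF i (Finset.mem_insert_of_mem hi))
    have := h1.add h2
    simpa [Finset.sum_insert ha] using this

theorem SPG.const (a : ℂ) : SPG (fun _ => a) := by
  intro B
  refine ⟨‖a‖, 0, 0, fun z _ _ => ?_⟩
  simp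

theorem SPG.coe : SPG (fun z : ℍ => (z : ℂ)) := by
  intro B
  refine ⟨|B| + 1, 1, 1, fun z hz hA => ?_⟩
  have h1 : ‖(z : ℂ)‖ ≤ |(z : ℂ).re| + |(z : ℂ).im| := Complex.norm_le_abs_re_add_abs_im _
  rw [UpperHalfPlane.coe_re, UpperHalfPlane.coe_im, abs_of_pos z.im_pos] at h1
  have h2 : |z.re| ≤ |B| := hz.trans (le_abs_self B)
  have h3 : 0 ≤ |B| := abs_nonneg B
  rw [pow_one]
  nlinarith

theorem SPG.mul {P Q : ℍ → ℂ} (hP : SPG P) (hQ : SPG Q) : SPG (fun z => P z * Q z) := by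
  intro B
  obtain ⟨K₁, n₁, A₁, hK₁, hA₁, h₁⟩ := hP.normal B
  obtain ⟨K₂, n₂, A₂, hK₂, hA₂, h₂⟩ := hQ.normal B
  refine ⟨K₁ * K₂, n₁ + n₂, max A₁ A₂, fun z hz hA => ?_⟩
  rw [norm_mul, pow_add]
  have e1 := h₁ z hz ((le_max_left _ _).trans hA)
  have e2 := h₂ z hz ((le_max_right _ _).trans hA)
  calc ‖P z‖ * ‖Q z‖ ≤ (K₁ * z.im ^ n₁) * (K₂ * z.im ^ n₂) :=
        mul_le_mul e1 e2 (norm_nonneg _) (mul_nonneg hK₁ (pow_nonneg z.im_pos.le _))
    _ = K₁ * K₂ * (z.im ^ n₁ * z.im ^ n₂) := by ring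

theorem SPG.add {P Q : ℍ → ℂ} (hP : SPG P) (hQ : SPG Q) : SPG (fun z => P z + Q z) := by
  intro B
  obtain ⟨K₁, n₁, A₁, hK₁, hA₁, h₁⟩ := hP.normal B
  obtain ⟨K₂, n₂, A₂, hK₂, hA₂, h₂⟩ := hQ.normal B
  refine ⟨K₁ + K₂, max n₁ n₂, max A₁ A₂, fun z hz hA => ?_⟩
  have hy1 : 1 ≤ z.im := hA₁.trans ((le_max_left _ _).trans hA)
  have e1 := h₁ z hz ((le_max_left _ _).trans hA)
  have e2 := h₂ z hz ((le_max_right _ _).trans hA)
  have p1 : z.im ^ n₁ ≤ z.im ^ (max n₁ n₂) := pow_le_pow_right₀ hy1 (le_max_left _ _)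
  have p2 : z.im ^ n₂ ≤ z.im ^ (max n₁ n₂) := pow_le_pow_right₀ hy1 (le_max_right _ _)
  calc ‖P z + Q z‖ ≤ ‖P z‖ + ‖Q z‖ := norm_add_le _ _
    _ ≤ K₁ * z.im ^ n₁ + K₂ * z.im ^ n₂ := add_le_add e1 e2
    _ ≤ K₁ * z.im ^ (max n₁ n₂) + K₂ * z.im ^ (max n₁ n₂) :=
        add_le_add (mul_le_mul_of_nonneg_left p1 hK₁) (mul_le_mul_of_nonneg_left p2 hK₂)
    _ = (K₁ + K₂) * z.im ^ (max n₁ n₂) := by ring

theorem SPG.neg {P : ℍ → ℂ} (hP : SPG P) : SPG (fun z => -P z) := by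
  have := (SPG.const (-1)).mul hP
  simpa using this

theorem SPG.sub {P Q : ℍ → ℂ} (hP : SPG P) (hQ : SPG Q) : SPG (fun z => P z - Q z) := by
  have := hP.add hQ.neg
  simpa [sub_eq_add_neg] using this

theorem SPG.pow {P : ℍ → ℂ} (hP : SPG P) (n : ℕ) : SPG (fun z => P z ^ n) := by
  induction n with
  | zero => simpa using SPG.const 1
  | succ n ih =>
    have := ih.mul hP
    simpa [pow_succ] using this

/-- The basic analytic estimate: `y ^ n * exp (-c y) ≤ K * exp (-(c/2) y)`. -/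
theorem pow_mul_exp_le {c : ℝ} (hc : 0 < c) (n : ℕ) {y : ℝ} (hy : 0 ≤ y) :
    y ^ n * Real.exp (-c * y) ≤ ((n.factorial : ℝ) * (2 / c) ^ n) * Real.exp (-(c / 2) * y) := by
  have ht : 0 ≤ c / 2 * y := by positivity
  have h1 : (c / 2 * y) ^ n / (n.factorial : ℝ) ≤ Real.exp (c / 2 * y) :=
    Real.pow_div_factorial_le_exp (c / 2 * y) ht n
  have hfac : (0 : ℝ) < n.factorial := by exact_mod_cast n.factorial_pos
  have h2 : (c / 2 * y) ^ n ≤ Real.exp (c / 2 * y) * (n.factorial : ℝ) := by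
    rwa [div_le_iff₀ hfac] at h1
  have h3 : y ^ n = (2 / c) ^ n * (c / 2 * y) ^ n := by
    rw [← mul_pow]
    congr 1
    field_simp
  have h4 : Real.exp (c / 2 * y) * Real.exp (-c * y) = Real.exp (-(c / 2) * y) := by
    rw [← Real.exp_add]
    congr 1
    ring
  have hpos : 0 < Real.exp (-c * y) := Real.exp_pos _
  calc y ^ n * Real.exp (-c * y) = (2 / c) ^ n * ((c / 2 * y) ^ n * Real.exp (-c * y)) := by
        rw [h3]; ring
    _ ≤ (2 / c) ^ n * ((Real.exp (c / 2 * y) * (n.factorial : ℝ)) * Real.exp (-c * y)) := by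
        apply mul_le_mul_of_nonneg_left _ (by positivity)
        exact mul_le_mul_of_nonneg_right h2 hpos.le
    _ = (n.factorial : ℝ) * (2 / c) ^ n * (Real.exp (c / 2 * y) * Real.exp (-c * y)) := by ring
    _ = (n.factorial : ℝ) * (2 / c) ^ n * Real.exp (-(c / 2) * y) := by rw [h4]

theorem SED.mul_spg {F Q : ℍ → ℂ} (hF : SED F) (hQ : SPG Q) : SED (fun z => Q z * F z) := by
  intro B
  obtain ⟨C, c, A₁, hC, hc, hA₁, h₁⟩ := hF.normal B
  obtain ⟨K, n, A₂, hK, hA₂, h₂⟩ := hQ.normal B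
  refine ⟨K * C * ((n.factorial : ℝ) * (2 / c) ^ n), c / 2, max A₁ A₂, by positivity,
    fun z hz hA => ?_⟩
  have e1 := h₁ z hz ((le_max_left _ _).trans hA)
  have e2 := h₂ z hz ((le_max_right _ _).trans hA)
  have e3 := pow_mul_exp_le hc n z.im_pos.le
  rw [norm_mul]
  calc ‖Q z‖ * ‖F z‖ ≤ (K * z.im ^ n) * (C * Real.exp (-c * z.im)) :=
        mul_le_mul e2 e1 (norm_nonneg _) (mul_nonneg hK (pow_nonneg z.im_pos.le _))
    _ = K * C * (z.im ^ n * Real.exp (-c * z.im)) := by ring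
    _ ≤ K * C * (((n.factorial : ℝ) * (2 / c) ^ n) * Real.exp (-(c / 2) * z.im)) :=
        mul_le_mul_of_nonneg_left e3 (mul_nonneg hK hC)
    _ = K * C * ((n.factorial : ℝ) * (2 / c) ^ n) * Real.exp (-(c / 2) * z.im) := by ring

/-- Precomposition with a real affine map `z ↦ r z + s`, `r > 0`, preserves decay. -/
theorem SED.comp_affine {F : ℍ → ℂ} (hF : SED F) (T : ℍ → ℍ) (r s : ℝ) (hr : 0 < r)
    (hT : ∀ z : ℍ, ((T z : ℍ) : ℂ) = (r : ℂ) * (z : ℂ) + (s : ℂ)) : SED (fun z => F (T z)) := by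
  have hre : ∀ z : ℍ, (T z).re = r * z.re + s := by
    intro z
    have := congrArg Complex.re (hT z)
    simpa using this
  have him : ∀ z : ℍ, (T z).im = r * z.im := by
    intro z
    have := congrArg Complex.im (hT z)
    simpa using this
  intro B
  obtain ⟨C, c, A, hC, hc, hA, h⟩ := hF.normal (r * |B| + |s|)
  refine ⟨C, c * r, A / r, by positivity, fun z hz hAz => ?_⟩
  have h1 : |(T z).re| ≤ r * |B| + |s| := by
    rw [hre]
    refine (abs_add_le _ _).trans ?_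
    rw [abs_mul, abs_of_pos hr]
    have : |z.re| ≤ |B| := hz.trans (le_abs_self B)
    nlinarith [abs_nonneg s]
  have h2 : A ≤ (T z).im := by
    rw [him]
    rw [div_le_iff₀ hr] at hAz
    linarith
  have := h (T z) h1 h2
  rw [him] at this
  convert this using 3
  ring

end Fermat.Agent.S22
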