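import Fermat.Agent.S22.Cocycle

/-!
# The diagonal of the Eichler integral and the descent chain
-/

set_option autoImplicit false

namespace Fermat.Agent.S22

open Complex UpperHalfPlane Filter Topology Set
open scoped Manifold ModularForm MatrixGroups

/-- The diagonal function `z ↦ Φ(z; z, 1)`. -/
noncomputable def diag (n : ℕ) (φ : ℍ → ℂ) (z : ℍ) : ℂ := eich n φ z (z : ℂ) 1

theorem diag_sed {φ : ℍ → ℂ} (hφ : IsDH φ) (n : ℕ) : SED (diag n φ) := by
  unfold diag eich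
  refine SED.sum _ fun j _ => ?_
  refine (np_sed (hφ.coe_pow_mul (n - j))).mul_spg ?_
  exact ((SPG.const _).mul (SPG.coe.pow j)).mul (SPG.const _)

theorem diag_zero_isPrim {φ : ℍ → ℂ} (hφ : IsDH φ) : IsPrim (diag 0 φ) φ := by
  have h := eich_isPrim hφ 0 0 1
  have e : ∀ z : ℍ, eich 0 φ z 0 1 = diag 0 φ z := by
    intro z
    simp [diag, eich]
  exact (h.congr_left e).congr fun z => by simp

theorem diag_succ_isPrim {φ : ℍ → ℂ} (hφ : IsDH φ) (n : ℕ) :
    IsPrim (diag (n + 1) φ) (fun z => ((n : ℂ) + 1) * diag n φ z) := by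
  have hterm : ∀ j ∈ Finset.range (n + 1 + 1),
      IsPrim (fun z : ℍ => ((((n + 1).choose j : ℂ) * (-1) ^ (n + 1 - j)) * (z : ℂ) ^ j) *
          np (fun w => (w : ℂ) ^ (n + 1 - j) * φ w) z)
        (fun z : ℍ => ((((n + 1).choose j : ℂ) * (-1) ^ (n + 1 - j)) * ((j : ℂ) * (z : ℂ) ^ (j - 1))) *
            np (fun w => (w : ℂ) ^ (n + 1 - j) * φ w) z
          + ((((n + 1).choose j : ℂ) * (-1) ^ (n + 1 - j)) * (z : ℂ) ^ j) *
            ((z : ℂ) ^ (n + 1 - j) * φ z)) := by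
    intro j _
    exact ((isPrim_coe_pow j).const_mul _).mul (np_isPrim (hφ.coe_pow_mul (n + 1 - j)))
  have hsum := IsPrim.sum _ hterm
  have hleft : ∀ z : ℍ, (∑ j ∈ Finset.range (n + 1 + 1),
      ((((n + 1).choose j : ℂ) * (-1) ^ (n + 1 - j)) * (z : ℂ) ^ j) *
          np (fun w => (w : ℂ) ^ (n + 1 - j) * φ w) z) = diag (n + 1) φ z := by
    intro z
    unfold diag eich
    refine Finset.sum_congr rfl fun j _ => ?_
    ring
  refine (hsum.congr_left hleft).congr fun z => ?_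
  rw [Finset.sum_add_distrib]
  have h2 : (∑ j ∈ Finset.range (n + 1 + 1),
      ((((n + 1).choose j : ℂ) * (-1) ^ (n + 1 - j)) * (z : ℂ) ^ j) *
            ((z : ℂ) ^ (n + 1 - j) * φ z)) = 0 := by
    have e : (∑ j ∈ Finset.range (n + 1 + 1),
        ((((n + 1).choose j : ℂ) * (-1) ^ (n + 1 - j)) * (z : ℂ) ^ j) *
            ((z : ℂ) ^ (n + 1 - j) * φ z))
        = φ z * ∑ j ∈ Finset.range (n + 1 + 1),
            (z : ℂ) ^ j * (-(z : ℂ)) ^ (n + 1 - j) * ((n + 1).choose j : ℂ) := by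
      rw [Finset.mul_sum]
      refine Finset.sum_congr rfl fun j _ => ?_
      rw [neg_pow (z : ℂ)]
      ring
    rw [e, ← add_pow]
    simp
  rw [h2, add_zero, Finset.sum_range_succ']
  have h0 : ((((n + 1).choose 0 : ℂ) * (-1) ^ (n + 1 - 0)) * (((0 : ℕ) : ℂ) * (z : ℂ) ^ (0 - 1))) *
            np (fun w => (w : ℂ) ^ (n + 1 - 0) * φ w) z = 0 := by
    simp
  rw [h0, add_zero]
  unfold diag eich
  rw [Finset.mul_sum]
  refine Finset.sum_congr rfl fun i _ => ?_
  have hc : ((n + 1).choose (i + 1) : ℂ) * ((i + 1 : ℕ) : ℂ) = ((n : ℂ) + 1) * (n.choose i : ℂ) := by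
    have := Nat.add_one_mul_choose_eq n i
    have h' := congrArg (fun t : ℕ => (t : ℂ)) this
    simp only [Nat.cast_mul, Nat.cast_add, Nat.cast_one] at h'
    push_cast
    rw [← h']
  have e1 : n + 1 - (i + 1) = n - i := by omega
  have e2 : i + 1 - 1 = i := by omega
  rw [e1, e2]
  calc (((n + 1).choose (i + 1) : ℂ) * (-1) ^ (n - i) * (((i + 1 : ℕ) : ℂ) * (z : ℂ) ^ i)) *
        np (fun w => (w : ℂ) ^ (n - i) * φ w) z
      = (((n + 1).choose (i + 1) : ℂ) * ((i + 1 : ℕ) : ℂ)) * ((-1) ^ (n - i) * (z : ℂ) ^ i) *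
        np (fun w => (w : ℂ) ^ (n - i) * φ w) z := by ring
    _ = (((n : ℂ) + 1) * (n.choose i : ℂ)) * ((-1) ^ (n - i) * (z : ℂ) ^ i) *
        np (fun w => (w : ℂ) ^ (n - i) * φ w) z := by rw [hc]
    _ = ((n : ℂ) + 1) * (((n.choose i : ℂ) * (z : ℂ) ^ i * (-1) ^ (n - i)) *
        np (fun w => (w : ℂ) ^ (n - i) * φ w) z) := by ring

theorem diag_mdifferentiable {φ : ℍ → ℂ} (hφ : IsDH φ) (n : ℕ) :
    MDifferentiable 𝓘(ℂ) 𝓘(ℂ) (diag n φ) := by
  cases n with
  | zero => exact (diag_zero_isPrim hφ).mdifferentiable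
  | succ n => exact (diag_succ_isPrim hφ n).mdifferentiable

/-- If the diagonal function is constant, the original function vanishes. -/
theorem eq_zero_of_diag_const {φ : ℍ → ℂ} (hφ : IsDH φ) (n : ℕ) (c : ℂ)
    (h : ∀ z, diag n φ z = c) : ∀ z, φ z = 0 := by
  induction n generalizing c with
  | zero =>
    have h1 := diag_zero_isPrim hφ
    have h2 : IsPrim (diag 0 φ) (fun _ => (0 : ℂ)) := (IsPrim.const c).congr_left fun z => (h z).symm
    intro z
    exact congrFun (h1.deriv_unique h2) z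
  | succ n ih =>
    have h1 := diag_succ_isPrim hφ n
    have h2 : IsPrim (diag (n + 1) φ) (fun _ => (0 : ℂ)) :=
      (IsPrim.const c).congr_left fun z => (h z).symm
    have h3 := h1.deriv_unique h2
    refine ih 0 fun z => ?_
    have h4 : ((n : ℂ) + 1) * diag n φ z = 0 := congrFun h3 z
    have hn : ((n : ℂ) + 1) ≠ 0 := by
      have : ((n : ℂ) + 1) = ((n + 1 : ℕ) : ℂ) := by push_cast; ring
      rw [this]
      exact_mod_cast Nat.succ_ne_zero n
    exact (mul_eq_zero.mp h4).resolve_left hn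

end Fermat.Agent.S22
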