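import Fermat.Agent.S22.NormPrimExists

/-!
# Eichler integrals of decaying holomorphic functions
-/

set_option autoImplicit false

namespace Fermat.Agent.S22

open Complex UpperHalfPlane Filter Topology Set
open scoped Manifold ModularForm MatrixGroups

/-- Holomorphic functions on the upper half-plane with strip-wise exponential decay. -/
structure IsDH (φ : ℍ → ℂ) : Prop where
  holo : MDifferentiable 𝓘(ℂ) 𝓘(ℂ) φ
  sed : SED φ

theorem IsDH.add {φ ψ : ℍ → ℂ} (h₁ : IsDH φ) (h₂ : IsDH ψ) : IsDH (fun z => φ z + ψ z) :=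
  ⟨h₁.holo.add h₂.holo, h₁.sed.add h₂.sed⟩

theorem IsDH.zero : IsDH (fun _ => (0 : ℂ)) := ⟨mdifferentiable_const, SED.zero⟩

theorem IsDH.sum {ι : Type*} (s : Finset ι) {φ : ι → ℍ → ℂ} (h : ∀ i ∈ s, IsDH (φ i)) :
    IsDH (fun z => ∑ i ∈ s, φ i z) := by
  classical
  induction s using Finset.induction_on with
  | empty => simpa using IsDH.zero
  | insert a s ha ih =>
    have h1 := h a (Finset.mem_insert_self _ _)
    have h2 := ih (fun i hi => h i (Finset.mem_insert_of_mem hi))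
    have := h1.add h2
    simpa [Finset.sum_insert ha] using this

theorem IsDH.const_mul {φ : ℍ → ℂ} (h : IsDH φ) (a : ℂ) : IsDH (fun z => a * φ z) :=
  ⟨mdifferentiable_const.mul h.holo, h.sed.const_mul a⟩

theorem mdifferentiable_coe_pow (j : ℕ) :
    MDifferentiable 𝓘(ℂ) 𝓘(ℂ) (fun z : ℍ => (z : ℂ) ^ j) :=
  (isPrim_coe_pow j).mdifferentiable

theorem IsDH.coe_pow_mul {φ : ℍ → ℂ} (h : IsDH φ) (j : ℕ) :
    IsDH (fun z => (z : ℂ) ^ j * φ z) :=
  ⟨(mdifferentiable_coe_pow j).mul h.holo, h.sed.mul_spg (SPG.coe.pow j)⟩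

open Classical in
/-- The normalized primitive of a decaying holomorphic function (zero otherwise). -/
noncomputable def np (φ : ℍ → ℂ) : ℍ → ℂ :=
  if h : IsDH φ then Classical.choose (exists_isPrim_sed h.holo h.sed) else fun _ => 0

theorem np_isPrim {φ : ℍ → ℂ} (h : IsDH φ) : IsPrim (np φ) φ := by
  rw [np, dif_pos h]
  exact (Classical.choose_spec (exists_isPrim_sed h.holo h.sed)).1

theorem np_sed {φ : ℍ → ℂ} (h : IsDH φ) : SED (np φ) := by
  rw [np, dif_pos h]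
  exact (Classical.choose_spec (exists_isPrim_sed h.holo h.sed)).2

theorem np_eq {φ G : ℍ → ℂ} (h : IsDH φ) (hG : IsPrim G φ) (sG : SED G) : G = np φ :=
  hG.unique_of_sed (np_isPrim h) sG (np_sed h)

theorem np_isDH {φ : ℍ → ℂ} (h : IsDH φ) : IsDH (np φ) :=
  ⟨(np_isPrim h).mdifferentiable, np_sed h⟩

/-- The two-variable Eichler integral: the normalized primitive of `φ z (X - z Y) ^ m`. -/
noncomputable def eich (m : ℕ) (φ : ℍ → ℂ) (z : ℍ) (X Y : ℂ) : ℂ :=
  ∑ j ∈ Finset.range (m + 1),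
    ((m.choose j : ℂ) * X ^ j * (-Y) ^ (m - j)) * np (fun w => (w : ℂ) ^ (m - j) * φ w) z

theorem eich_isPrim {φ : ℍ → ℂ} (h : IsDH φ) (m : ℕ) (X Y : ℂ) :
    IsPrim (fun z => eich m φ z X Y) (fun z => φ z * (X - (z : ℂ) * Y) ^ m) := by
  have h1 : IsPrim (fun z => eich m φ z X Y)
      (fun z => ∑ j ∈ Finset.range (m + 1),
        ((m.choose j : ℂ) * X ^ j * (-Y) ^ (m - j)) * ((z : ℂ) ^ (m - j) * φ z)) := by
    unfold eich
    exact IsPrim.sum _ fun j _ => (np_isPrim (h.coe_pow_mul (m - j))).const_mul _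
  refine h1.congr fun z => ?_
  have e : X - (z : ℂ) * Y = X + (-((z : ℂ) * Y)) := by ring
  rw [e, add_pow, Finset.mul_sum]
  refine Finset.sum_congr rfl fun j _ => ?_
  rw [show -((z : ℂ) * Y) = (z : ℂ) * (-Y) by ring, mul_pow]
  ring

theorem eich_sed {φ : ℍ → ℂ} (h : IsDH φ) (m : ℕ) (X Y : ℂ) :
    SED (fun z => eich m φ z X Y) := by
  unfold eich
  exact SED.sum _ fun j _ => (np_sed (h.coe_pow_mul (m - j))).const_mul _

theorem eich_eq_of_isPrim_sed {φ F : ℍ → ℂ} (h : IsDH φ) (m : ℕ) (X Y : ℂ)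
    (hF : IsPrim F (fun z => φ z * (X - (z : ℂ) * Y) ^ m)) (sF : SED F) (z : ℍ) :
    F z = eich m φ z X Y :=
  congrFun (hF.unique_of_sed (eich_isPrim h m X Y) sF (eich_sed h m X Y)) z

theorem eich_add {φ ψ : ℍ → ℂ} (h₁ : IsDH φ) (h₂ : IsDH ψ) (m : ℕ) (z : ℍ) (X Y : ℂ) :
    eich m (fun w => φ w + ψ w) z X Y = eich m φ z X Y + eich m ψ z X Y := by
  symm
  refine eich_eq_of_isPrim_sed (F := fun z => eich m φ z X Y + eich m ψ z X Y) (h₁.add h₂) m X Y
    ?_ ((eich_sed h₁ m X Y).add (eich_sed h₂ m X Y)) z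
  refine ((eich_isPrim h₁ m X Y).add (eich_isPrim h₂ m X Y)).congr fun z => ?_
  ring

theorem eich_const_mul {φ : ℍ → ℂ} (h : IsDH φ) (a : ℂ) (m : ℕ) (z : ℍ) (X Y : ℂ) :
    eich m (fun w => a * φ w) z X Y = a * eich m φ z X Y := by
  symm
  refine eich_eq_of_isPrim_sed (F := fun z => a * eich m φ z X Y) (h.const_mul a) m X Y
    ?_ ((eich_sed h m X Y).const_mul a) z
  refine ((eich_isPrim h m X Y).const_mul a).congr fun z => ?_
  ring

theorem eich_sum {ι : Type*} (s : Finset ι) {φ : ι → ℍ → ℂ} (h : ∀ i ∈ s, IsDH (φ i)) (m : ℕ)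
    (z : ℍ) (X Y : ℂ) :
    eich m (fun w => ∑ i ∈ s, φ i w) z X Y = ∑ i ∈ s, eich m (φ i) z X Y := by
  symm
  refine eich_eq_of_isPrim_sed (F := fun z => ∑ i ∈ s, eich m (φ i) z X Y) (IsDH.sum s h) m X Y
    ?_ (SED.sum s fun i hi => eich_sed (h i hi) m X Y) z
  refine (IsPrim.sum s fun i hi => eich_isPrim (h i hi) m X Y).congr fun z => ?_
  rw [Finset.sum_mul]

/-- homogeneity of degree `m` in `(X, Y)` -/
theorem eich_homog (m : ℕ) (φ : ℍ → ℂ) (z : ℍ) (c X Y : ℂ) :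
    eich m φ z (c * X) (c * Y) = c ^ m * eich m φ z X Y := by
  unfold eich
  rw [Finset.mul_sum]
  refine Finset.sum_congr rfl fun j hj => ?_
  have hj' : j ≤ m := Nat.lt_succ_iff.mp (Finset.mem_range.mp hj)
  have e : c ^ m = c ^ j * c ^ (m - j) := by
    rw [← pow_add, Nat.add_sub_cancel' hj']
  rw [e, show -(c * Y) = c * (-Y) by ring, mul_pow, mul_pow]
  ring

/-- The action of a real matrix on the first coordinate of a complex vector. -/
noncomputable def actX (g : GL (Fin 2) ℝ) (X Y : ℂ) : ℂ := (g 0 0 : ℂ) * X + (g 0 1 : ℂ) * Y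

/-- The action of a real matrix on the second coordinate of a complex vector. -/
noncomputable def actY (g : GL (Fin 2) ℝ) (X Y : ℂ) : ℂ := (g 1 0 : ℂ) * X + (g 1 1 : ℂ) * Y

theorem actX_mul (g h : GL (Fin 2) ℝ) (X Y : ℂ) :
    actX (g * h) X Y = actX g (actX h X Y) (actY h X Y) := by
  simp only [actX, actY, Matrix.GeneralLinearGroup.coe_mul, Matrix.mul_apply, Fin.sum_univ_two]
  push_cast
  ring

theorem actY_mul (g h : GL (Fin 2) ℝ) (X Y : ℂ) :
    actY (g * h) X Y = actY g (actX h X Y) (actY h X Y) := by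
  simp only [actX, actY, Matrix.GeneralLinearGroup.coe_mul, Matrix.mul_apply, Fin.sum_univ_two]
  push_cast
  ring

theorem act_sub_smul (g : GL (Fin 2) ℝ) (hg : 0 < g.val.det) (z : ℍ) (X Y : ℂ) :
    actX g X Y - ((g • z : ℍ) : ℂ) * actY g X Y
      = (g.val.det : ℂ) * (X - (z : ℂ) * Y) / denom g z := by
  have hdet : 0 < g.det.val := by
    rw [Matrix.GeneralLinearGroup.val_det_apply]; exact hg
  rw [coe_smul_of_det_pos hdet]
  have hz : denom g z ≠ 0 := denom_ne_zero g z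
  rw [eq_div_iff hz]
  have hd : (g.val.det : ℂ) = (g 0 0 : ℂ) * (g 1 1 : ℂ) - (g 0 1 : ℂ) * (g 1 0 : ℂ) := by
    rw [Matrix.det_fin_two]
    push_cast
    rfl
  have h1 : num g z / denom g z * actY g X Y * denom g z = num g z * actY g X Y := by
    field_simp
  rw [sub_mul, h1, hd]
  simp only [actX, actY, num, denom]
  ring

/-- Chain rule for Eichler integrals under the action of `GL₂⁺(ℝ)`. -/
theorem IsPrim.comp_act {F φ : ℍ → ℂ} (m : ℕ) (g : GL (Fin 2) ℝ) (hg : 0 < g.val.det) (X Y : ℂ)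
    (hF : IsPrim F (fun z => φ z * (actX g X Y - (z : ℂ) * actY g X Y) ^ m)) :
    IsPrim (fun z => F (g • z)) (fun z => (φ ∣[(m : ℤ) + 2] g) z * (X - (z : ℂ) * Y) ^ m) := by
  refine (hF.comp_smul g hg).congr fun z => ?_
  have hdet : 0 < g.det.val := by
    rw [Matrix.GeneralLinearGroup.val_det_apply]; exact hg
  have hz : denom g z ≠ 0 := denom_ne_zero g z
  rw [act_sub_smul g hg z X Y, ModularForm.slash_apply]
  have hσ : σ g (φ (g • z)) = φ (g • z) := by
    simp [σ, hg]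
  rw [hσ, Matrix.GeneralLinearGroup.val_det_apply, abs_of_pos hg]
  have e1 : ((m : ℤ) + 2 - 1) = ((m + 1 : ℕ) : ℤ) := by push_cast; ring
  have e2 : (-((m : ℤ) + 2)) = -((m + 2 : ℕ) : ℤ) := by push_cast; ring
  rw [e1, e2, zpow_natCast, zpow_neg, zpow_natCast, div_pow, mul_pow]
  have hdetne : (g.val.det : ℂ) ≠ 0 := Complex.ofReal_ne_zero.mpr hg.ne'
  field_simp
  ring

end Fermat.Agent.S22
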