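import Mathlib

/-!
# Finiteness of an adjoined algebra preserving a lattice of functionals

If a set `G` of endomorphisms of a complex vector space `V` preserves (by precomposition) a
finitely generated `ℤ`-submodule `Λ` of the dual of `V` which separates the points of `V`,
then the `ℤ`-algebra generated by `G` is a finitely generated `ℤ`-module.
-/

set_option autoImplicit false

namespace Fermat.Agent.S22

open Module

section

variable {V : Type*} [AddCommGroup V] [Module ℂ V]

/-- Precomposition stability propagates from generators to the adjoined algebra. -/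
theorem comp_mem_of_mem_adjoin (G : Set (Module.End ℂ V)) (Λ : Submodule ℤ (V →ₗ[ℂ] ℂ))
    (hstab : ∀ t ∈ G, ∀ φ ∈ Λ, φ ∘ₗ t ∈ Λ) {t : Module.End ℂ V}
    (ht : t ∈ Algebra.adjoin ℤ G) : ∀ φ ∈ Λ, φ ∘ₗ t ∈ Λ := by
  induction ht using Algebra.adjoin_induction with
  | mem x hx => exact hstab x hx
  | algebraMap r =>
    intro φ hφ
    have : φ ∘ₗ (algebraMap ℤ (Module.End ℂ V) r) = r • φ := by
      ext v
      simp [Algebra.algebraMap_eq_smul_one]
    rw [this]
    exact Λ.smul_mem r hφ
  | add x y _ _ hx hy =>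
    intro φ hφ
    rw [LinearMap.comp_add]
    exact Λ.add_mem (hx φ hφ) (hy φ hφ)
  | mul x y _ _ hx hy =>
    intro φ hφ
    have : φ ∘ₗ (x * y) = (φ ∘ₗ x) ∘ₗ y := rfl
    rw [this]
    exact hy _ (hx φ hφ)

/-- The key abstract finiteness statement. -/
theorem finite_adjoin_of_lattice (G : Set (Module.End ℂ V)) (Λ : Submodule ℤ (V →ₗ[ℂ] ℂ))
    (hfg : Λ.FG) (hsep : ∀ v : V, (∀ φ ∈ Λ, φ v = 0) → v = 0)
    (hstab : ∀ t ∈ G, ∀ φ ∈ Λ, φ ∘ₗ t ∈ Λ) :
    Module.Finite ℤ (Algebra.adjoin ℤ G) := by
  classical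
  haveI hΛfin : Module.Finite ℤ Λ := Module.Finite.iff_fg.mpr hfg
  haveI : IsAddTorsionFree (V →ₗ[ℂ] ℂ) := .of_isTorsionFree ℂ _
  haveI : Module.Free ℤ Λ := Module.free_of_finite_type_torsion_free'
  -- the action map
  let Ψ : (Algebra.adjoin ℤ G) →ₗ[ℤ] (Λ →ₗ[ℤ] Λ) :=
    { toFun := fun t =>
        { toFun := fun φ => ⟨(φ : V →ₗ[ℂ] ℂ) ∘ₗ (t : Module.End ℂ V),
            comp_mem_of_mem_adjoin G Λ hstab t.2 φ φ.2⟩
          map_add' := fun φ ψ => by
            apply Subtype.ext
            simp [LinearMap.add_comp]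
          map_smul' := fun n φ => by
            apply Subtype.ext
            simp [LinearMap.smul_comp] }
      map_add' := fun s t => by
        apply LinearMap.ext
        intro φ
        apply Subtype.ext
        simp [LinearMap.comp_add]
      map_smul' := fun n t => by
        apply LinearMap.ext
        intro φ
        apply Subtype.ext
        apply LinearMap.ext
        intro v
        simp }
  have hinj : Function.Injective Ψ := by
    rw [injective_iff_map_eq_zero]
    intro t ht
    apply Subtype.ext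
    apply LinearMap.ext
    intro v
    apply hsep
    intro φ hφ
    have h1 := congrArg (fun F : Λ →ₗ[ℤ] Λ => ((F ⟨φ, hφ⟩ : Λ) : V →ₗ[ℂ] ℂ) v) ht
    simpa [Ψ] using h1
  exact Module.Finite.of_injective Ψ hinj

end

end Fermat.Agent.S22
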