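import Fermat.Agent.S22.Separation
import Fermat.Agent.S22.LatticeFinite

/-!
# The period lattice
-/

set_option autoImplicit false

namespace Fermat.Agent.S22

open Complex UpperHalfPlane Filter Topology Set Matrix.SpecialLinearGroup
open scoped Manifold ModularForm MatrixGroups Pointwise

theorem np_add {φ ψ : ℍ → ℂ} (h₁ : IsDH φ) (h₂ : IsDH ψ) (z : ℍ) :
    np (fun w => φ w + ψ w) z = np φ z + np ψ z := by
  have := np_eq (G := fun z => np φ z + np ψ z) (h₁.add h₂)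
    ((np_isPrim h₁).add (np_isPrim h₂)) ((np_sed h₁).add (np_sed h₂))
  exact (congrFun this z).symm

theorem np_const_mul {φ : ℍ → ℂ} (h : IsDH φ) (a : ℂ) (z : ℍ) :
    np (fun w => a * φ w) z = a * np φ z := by
  have := np_eq (G := fun z => a * np φ z) (h.const_mul a)
    ((np_isPrim h).const_mul a) ((np_sed h).const_mul a)
  exact (congrFun this z).symm

section

variable {Γ : Subgroup (GL (Fin 2) ℝ)} [Γ.IsArithmetic] [Γ.HasDetOne] {k : ℤ}

/-- The moment functionals `f ↦ (normalized primitive of z^j f)(z)`. -/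
noncomputable def npL (Γ : Subgroup (GL (Fin 2) ℝ)) [Γ.IsArithmetic] [Γ.HasDetOne] (k : ℤ) (j : ℕ) (z : ℍ) :
    CuspForm Γ k →ₗ[ℂ] ℂ where
  toFun f := np (fun w => (w : ℂ) ^ j * f w) z
  map_add' f g := by
    have e : (fun w : ℍ => (w : ℂ) ^ j * (f + g) w)
        = fun w : ℍ => (w : ℂ) ^ j * f w + (w : ℂ) ^ j * g w := by
      funext w
      rw [add_apply, mul_add]
    rw [e]
    exact np_add ((isDH_cuspForm f).coe_pow_mul j) ((isDH_cuspForm g).coe_pow_mul j) z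
  map_smul' c f := by
    have e : (fun w : ℍ => (w : ℂ) ^ j * (c • f) w)
        = fun w : ℍ => c * ((w : ℂ) ^ j * f w) := by
      funext w
      rw [smul_apply, smul_eq_mul]
      ring
    rw [e]
    simpa using np_const_mul ((isDH_cuspForm f).coe_pow_mul j) c z

/-- The Eichler integral as a linear functional of the cusp form. -/
noncomputable def eichL (Γ : Subgroup (GL (Fin 2) ℝ)) [Γ.IsArithmetic] [Γ.HasDetOne] (m : ℕ) (z : ℍ)
    (X Y : ℂ) : CuspForm Γ ((m : ℤ) + 2) →ₗ[ℂ] ℂ :=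
  ∑ j ∈ Finset.range (m + 1),
    ((m.choose j : ℂ) * X ^ j * (-Y) ^ (m - j)) • npL Γ ((m : ℤ) + 2) (m - j) z

theorem eichL_apply (m : ℕ) (z : ℍ) (X Y : ℂ) (f : CuspForm Γ ((m : ℤ) + 2)) :
    eichL Γ m z X Y f = eich m ⇑f z X Y := by
  simp [eichL, eich, npL]

/-- The period functional attached to a matrix and a vector. -/
noncomputable def perL (Γ : Subgroup (GL (Fin 2) ℝ)) [Γ.IsArithmetic] [Γ.HasDetOne] (m : ℕ)
    (g : GL (Fin 2) ℝ) (X Y : ℂ) : CuspForm Γ ((m : ℤ) + 2) →ₗ[ℂ] ℂ :=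
  eichL Γ m (g • UpperHalfPlane.I) (actX g X Y) (actY g X Y) - eichL Γ m UpperHalfPlane.I X Y

theorem perL_apply (m : ℕ) (g : GL (Fin 2) ℝ) (X Y : ℂ) (f : CuspForm Γ ((m : ℤ) + 2)) :
    perL Γ m g X Y f = eich m ⇑f (g • UpperHalfPlane.I) (actX g X Y) (actY g X Y)
      - eich m ⇑f UpperHalfPlane.I X Y := by
  simp [perL, eichL_apply]

/-- `z`-independence of the period. -/
theorem eich_act_eq_add_perL (m : ℕ) (g : GL (Fin 2) ℝ) (hg : 0 < g.val.det) (hgΓ : g ∈ Γ)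
    (f : CuspForm Γ ((m : ℤ) + 2)) (z : ℍ) (X Y : ℂ) :
    eich m ⇑f (g • z) (actX g X Y) (actY g X Y) = eich m ⇑f z X Y + perL Γ m g X Y f := by
  have hinv : ⇑f ∣[(m : ℤ) + 2] g = ⇑f := SlashInvariantFormClass.slash_action_eq f g hgΓ
  have := eich_act_sub_indep (isDH_cuspForm f) m g hg hinv X Y z UpperHalfPlane.I
  rw [perL_apply]
  linear_combination this

theorem perL_mul (m : ℕ) (g h : GL (Fin 2) ℝ) (hg : 0 < g.val.det) (hgΓ : g ∈ Γ) (X Y : ℂ) :
    perL Γ m (g * h) X Y = perL Γ m g (actX h X Y) (actY h X Y) + perL Γ m h X Y := by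
  apply LinearMap.ext
  intro f
  rw [LinearMap.add_apply, perL_apply m (g * h), perL_apply m h, actX_mul, actY_mul, mul_smul,
    eich_act_eq_add_perL m g hg hgΓ f (h • UpperHalfPlane.I)]
  ring

theorem perL_one (m : ℕ) (X Y : ℂ) : perL Γ m 1 X Y = 0 := by
  apply LinearMap.ext
  intro f
  rw [perL_apply]
  simp [actX, actY]

end

/-- Matrices with integer entries. -/
def IsIntMat (g : GL (Fin 2) ℝ) : Prop := ∀ i j, ∃ n : ℤ, g i j = (n : ℝ)

theorem IsIntMat.act {g : GL (Fin 2) ℝ} (hg : IsIntMat g) (a b : ℤ) :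
    ∃ a' b' : ℤ, actX g a b = (a' : ℂ) ∧ actY g a b = (b' : ℂ) := by
  obtain ⟨n00, h00⟩ := hg 0 0
  obtain ⟨n01, h01⟩ := hg 0 1
  obtain ⟨n10, h10⟩ := hg 1 0
  obtain ⟨n11, h11⟩ := hg 1 1
  refine ⟨n00 * a + n01 * b, n10 * a + n11 * b, ?_, ?_⟩
  · simp only [actX, h00, h01]
    push_cast
    ring
  · simp only [actY, h10, h11]
    push_cast
    ring

theorem isIntMat_mapGL (γ : SL(2, ℤ)) : IsIntMat (mapGL ℝ γ) := by
  intro i j
  exact ⟨γ i j, by simp⟩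

/-- The period lattice of level `Γ₀(N)` and weight `m + 2`: the `ℤ`-span of the period
functionals `f ↦ Φ_f(γ i; γ (a, b)) - Φ_f(i; (a, b))` for `γ ∈ Γ₀(N)` and `a b : ℤ`. -/
noncomputable def periodLattice (N : ℕ) [NeZero N] (m : ℕ) :
    Submodule ℤ (CuspForm (CongruenceSubgroup.Gamma0 N : Subgroup (GL (Fin 2) ℝ)) ((m : ℤ) + 2)
      →ₗ[ℂ] ℂ) :=
  Submodule.span ℤ {φ | ∃ γ ∈ CongruenceSubgroup.Gamma0 N, ∃ a b : ℤ,
    φ = perL (CongruenceSubgroup.Gamma0 N : Subgroup (GL (Fin 2) ℝ)) m (mapGL ℝ γ) a b}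

theorem perL_mem_periodLattice (N : ℕ) [NeZero N] (m : ℕ) {γ : SL(2, ℤ)}
    (hγ : γ ∈ CongruenceSubgroup.Gamma0 N) (a b : ℤ) :
    perL (CongruenceSubgroup.Gamma0 N : Subgroup (GL (Fin 2) ℝ)) m (mapGL ℝ γ) a b
      ∈ periodLattice N m :=
  Submodule.subset_span ⟨γ, hγ, a, b, rfl⟩

end Fermat.Agent.S22
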