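import Fermat.Agent.S22.Decay

/-!
# Normalized primitives on the upper half-plane
-/

set_option autoImplicit false

namespace Fermat.Agent.S22

open Complex UpperHalfPlane Filter Topology Set MeasureTheory
open scoped Manifold

/-- `G` is a holomorphic primitive of `φ` on the upper half-plane. -/
def IsPrim (G φ : ℍ → ℂ) : Prop := ∀ z : ℍ, HasDerivAt (G ∘ ofComplex) (φ z) (z : ℂ)

theorem IsPrim.add {G₁ G₂ φ₁ φ₂ : ℍ → ℂ} (h₁ : IsPrim G₁ φ₁) (h₂ : IsPrim G₂ φ₂) :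
    IsPrim (fun z => G₁ z + G₂ z) (fun z => φ₁ z + φ₂ z) := fun z => (h₁ z).add (h₂ z)

theorem IsPrim.sub {G₁ G₂ φ₁ φ₂ : ℍ → ℂ} (h₁ : IsPrim G₁ φ₁) (h₂ : IsPrim G₂ φ₂) :
    IsPrim (fun z => G₁ z - G₂ z) (fun z => φ₁ z - φ₂ z) := fun z => (h₁ z).sub (h₂ z)

theorem IsPrim.const_mul {G φ : ℍ → ℂ} (h : IsPrim G φ) (a : ℂ) :
    IsPrim (fun z => a * G z) (fun z => a * φ z) := fun z => (h z).const_mul a

theorem IsPrim.mul {G₁ G₂ φ₁ φ₂ : ℍ → ℂ} (h₁ : IsPrim G₁ φ₁) (h₂ : IsPrim G₂ φ₂) :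
    IsPrim (fun z => G₁ z * G₂ z) (fun z => φ₁ z * G₂ z + G₁ z * φ₂ z) := by
  intro z
  have := (h₁ z).mul (h₂ z)
  simp only [Function.comp_apply, ofComplex_apply] at this
  exact this

theorem IsPrim.zero : IsPrim (fun _ => (0 : ℂ)) (fun _ => (0 : ℂ)) :=
  fun z => hasDerivAt_const (z : ℂ) (0 : ℂ)

theorem IsPrim.const (a : ℂ) : IsPrim (fun _ => a) (fun _ => (0 : ℂ)) :=
  fun z => hasDerivAt_const (z : ℂ) a

theorem IsPrim.sum {ι : Type*} (s : Finset ι) {G φ : ι → ℍ → ℂ} (h : ∀ i ∈ s, IsPrim (G i) (φ i)) :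
    IsPrim (fun z => ∑ i ∈ s, G i z) (fun z => ∑ i ∈ s, φ i z) := by
  classical
  induction s using Finset.induction_on with
  | empty => simpa using IsPrim.zero
  | insert a s ha ih =>
    have h1 := h a (Finset.mem_insert_self _ _)
    have h2 := ih (fun i hi => h i (Finset.mem_insert_of_mem hi))
    have := h1.add h2
    simpa [Finset.sum_insert ha] using this

theorem IsPrim.congr {G φ φ' : ℍ → ℂ} (h : IsPrim G φ) (e : ∀ z, φ z = φ' z) : IsPrim G φ' :=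
  fun z => e z ▸ h z

theorem IsPrim.congr_left {G G' φ : ℍ → ℂ} (h : IsPrim G φ) (e : ∀ z, G z = G' z) : IsPrim G' φ := by
  have : G = G' := funext e
  exact this ▸ h

theorem isPrim_coe_pow (j : ℕ) :
    IsPrim (fun z : ℍ => (z : ℂ) ^ j) (fun z : ℍ => (j : ℂ) * (z : ℂ) ^ (j - 1)) := by
  intro z
  have h1 : HasDerivAt (fun w : ℂ => w ^ j) ((j : ℂ) * (z : ℂ) ^ (j - 1)) (z : ℂ) :=
    hasDerivAt_pow j (z : ℂ)
  refine h1.congr_of_eventuallyEq ?_
  filter_upwards [isOpen_upperHalfPlaneSet.mem_nhds z.im_pos] with w hw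
  simp [Function.comp_def, ofComplex_apply_of_im_pos hw]

theorem IsPrim.differentiableOn {G φ : ℍ → ℂ} (h : IsPrim G φ) :
    DifferentiableOn ℂ (G ∘ ofComplex) upperHalfPlaneSet := by
  intro w hw
  have := h ⟨w, hw⟩
  exact this.differentiableAt.differentiableWithinAt

theorem IsPrim.mdifferentiable {G φ : ℍ → ℂ} (h : IsPrim G φ) : MDifferentiable 𝓘(ℂ) 𝓘(ℂ) G :=
  UpperHalfPlane.mdifferentiable_iff.mpr h.differentiableOn

theorem IsPrim.deriv_unique {G φ₁ φ₂ : ℍ → ℂ} (h₁ : IsPrim G φ₁) (h₂ : IsPrim G φ₂) :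
    φ₁ = φ₂ := funext fun z => (h₁ z).unique (h₂ z)

theorem IsPrim.eq_add_const {G₁ G₂ φ : ℍ → ℂ} (h₁ : IsPrim G₁ φ) (h₂ : IsPrim G₂ φ) :
    ∀ z : ℍ, G₁ z = G₂ z + (G₁ UpperHalfPlane.I - G₂ UpperHalfPlane.I) := by
  have hconn : IsPreconnected upperHalfPlaneSet := by
    have : Convex ℝ upperHalfPlaneSet := convex_halfSpace_im_gt 0
    exact this.isPreconnected
  have h2' : IsPrim (fun z => G₂ z + (G₁ UpperHalfPlane.I - G₂ UpperHalfPlane.I)) φ := by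
    have := h₂.add (IsPrim.const (G₁ UpperHalfPlane.I - G₂ UpperHalfPlane.I))
    simpa using this
  have key := isOpen_upperHalfPlaneSet.eqOn_of_deriv_eq hconn h₁.differentiableOn
    h2'.differentiableOn (x := (UpperHalfPlane.I : ℂ)) ?_ UpperHalfPlane.I.im_pos ?_
  · intro z
    have := key z.im_pos
    simpa [Function.comp_def, ofComplex_apply] using this
  · intro w hw
    have e1 := (h₁ ⟨w, hw⟩).deriv
    have e2 := (h2' ⟨w, hw⟩).deriv
    rw [e1, e2]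
  · have hI : ofComplex Complex.I = UpperHalfPlane.I := by
      rw [← UpperHalfPlane.coe_I]
      exact ofComplex_apply _
    simp [hI]

theorem tendsto_const_mul_exp_neg (C c : ℝ) (hc : 0 < c) :
    Tendsto (fun y : ℝ => C * Real.exp (-c * y)) atTop (𝓝 0) := by
  have h1 : Tendsto (fun y : ℝ => c * y) atTop atTop := tendsto_id.const_mul_atTop hc
  have h2 : Tendsto (fun y : ℝ => Real.exp (-(c * y))) atTop (𝓝 0) :=
    Real.tendsto_exp_neg_atTop_nhds_zero.comp h1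
  have h3 := h2.const_mul C
  simpa [neg_mul] using h3

/-- the point `i y` of the upper half-plane -/
def vpt (y : ℝ) (hy : 0 < y) : ℍ := ⟨(y : ℂ) * Complex.I, by simpa using hy⟩

@[simp] theorem vpt_re (y : ℝ) (hy : 0 < y) : (vpt y hy).re = 0 := by
  simp [vpt, UpperHalfPlane.re]

@[simp] theorem vpt_im (y : ℝ) (hy : 0 < y) : (vpt y hy).im = y := by
  simp [vpt, UpperHalfPlane.im]

theorem SED.tendsto_vertical {F : ℍ → ℂ} (hF : SED F) :
    ∃ A : ℝ, 0 < A ∧ ∀ ε : ℝ, 0 < ε → ∃ Y : ℝ, A ≤ Y ∧ ∀ y (hy : 0 < y), Y ≤ y → ‖F (vpt y hy)‖ < ε := by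
  obtain ⟨C, c, A, hC, hc, hA, h⟩ := hF.normal 0
  refine ⟨A, by linarith, fun ε hε => ?_⟩
  have ht := tendsto_const_mul_exp_neg C c hc
  have hev : ∀ᶠ y : ℝ in atTop, C * Real.exp (-c * y) < ε := (tendsto_order.1 ht).2 ε hε
  obtain ⟨Y₀, hY₀⟩ := eventually_atTop.mp hev
  refine ⟨max Y₀ A, le_max_right _ _, fun y hy hYy => ?_⟩
  have h1 := h (vpt y hy) (by simp) (by simpa using (le_max_right _ _).trans hYy)
  rw [vpt_im] at h1
  exact lt_of_le_of_lt h1 (hY₀ y ((le_max_left _ _).trans hYy))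

theorem IsPrim.unique_of_sed {G₁ G₂ φ : ℍ → ℂ} (h₁ : IsPrim G₁ φ) (h₂ : IsPrim G₂ φ)
    (s₁ : SED G₁) (s₂ : SED G₂) : G₁ = G₂ := by
  have hc := h₁.eq_add_const h₂
  set c := G₁ UpperHalfPlane.I - G₂ UpperHalfPlane.I with hcdef
  have hs : SED (fun z => G₁ z - G₂ z) := s₁.sub s₂
  obtain ⟨A, hA, hε⟩ := hs.tendsto_vertical
  have hc0 : c = 0 := by
    by_contra hne
    have hpos : 0 < ‖c‖ := norm_pos_iff.mpr hne
    obtain ⟨Y, hAY, hY⟩ := hε ‖c‖ hpos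
    have hYpos : 0 < Y := lt_of_lt_of_le hA hAY
    have := hY Y hYpos le_rfl
    rw [hc (vpt Y hYpos)] at this
    simp at this
  funext z
  rw [hc z, hc0, add_zero]

theorem IsPrim.comp_smul {G φ : ℍ → ℂ} (h : IsPrim G φ) (g : GL (Fin 2) ℝ)
    (hg : 0 < g.val.det) :
    IsPrim (fun z => G (g • z)) (fun z => φ (g • z) * ((g.val.det : ℂ) / denom g z ^ 2)) := by
  intro z
  have h_smul : HasDerivAt (fun w ↦ ((g • ofComplex w : ℍ) : ℂ))
      ((g.val.det : ℂ) / denom g z ^ 2) ↑z := (hasStrictDerivAt_smul hg z).hasDerivAt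
  have h_F : HasDerivAt (G ∘ ofComplex) (φ (g • z)) ((g • ofComplex (z : ℂ) : ℍ) : ℂ) := by
    rw [ofComplex_apply]
    exact h (g • z)
  have := h_F.comp (z : ℂ) h_smul
  refine this.congr_of_eventuallyEq ?_
  filter_upwards with w
  simp [Function.comp_def, ofComplex_apply]

end Fermat.Agent.S22
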