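import Fermat.Agent.S22.NormPrim

/-!
# Existence of normalized primitives
-/

set_option autoImplicit false

namespace Fermat.Agent.S22

open Complex UpperHalfPlane Filter Topology Set MeasureTheory
open scoped Manifold

/-- the curve `t ↦ t i` -/
theorem hasDerivAt_vline (G₀ φ₀ : ℂ → ℂ) (hG₀ : ∀ z ∈ upperHalfPlaneSet, HasDerivAt G₀ (φ₀ z) z)
    (t : ℝ) (ht : 0 < t) :
    HasDerivAt (fun s : ℝ => G₀ ((s : ℂ) * Complex.I)) (φ₀ ((t : ℂ) * Complex.I) * Complex.I) t := by
  have h1 : HasDerivAt (fun s : ℝ => (s : ℂ) * Complex.I) Complex.I t := by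
    have := (Complex.ofRealCLM.hasDerivAt (x := t)).mul_const Complex.I
    simpa using this
  have hmem : (t : ℂ) * Complex.I ∈ upperHalfPlaneSet := by
    show 0 < ((t : ℂ) * Complex.I).im
    simpa using ht
  have h2 : HasDerivAt (G₀ ∘ fun s : ℝ => (s : ℂ) * Complex.I)
      (Complex.I • φ₀ ((t : ℂ) * Complex.I)) t := (hG₀ _ hmem).scomp t h1
  rw [smul_eq_mul, mul_comm] at h2
  exact h2

/-- Vertical estimate. -/
theorem vertical_estimate (G₀ φ₀ : ℂ → ℂ)
    (hG₀ : ∀ z ∈ upperHalfPlaneSet, HasDerivAt G₀ (φ₀ z) z)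
    (hcont : ContinuousOn φ₀ upperHalfPlaneSet)
    (C c A : ℝ) (hc : 0 < c) (hA : 0 < A)
    (hbd : ∀ t : ℝ, A ≤ t → ‖φ₀ ((t : ℂ) * Complex.I)‖ ≤ C * Real.exp (-c * t)) :
    ∃ L : ℂ, Tendsto (fun s : ℝ => G₀ ((s : ℂ) * Complex.I)) atTop (𝓝 L) ∧
      ∀ y : ℝ, A ≤ y → ‖G₀ ((y : ℂ) * Complex.I) - L‖ ≤ (C / c) * Real.exp (-c * y) := by
  set g : ℝ → ℂ := fun s : ℝ => G₀ ((s : ℂ) * Complex.I) with hg
  set g' : ℝ → ℂ := fun s : ℝ => φ₀ ((s : ℂ) * Complex.I) * Complex.I with hg'
  have hderiv : ∀ t : ℝ, 0 < t → HasDerivAt g (g' t) t := fun t ht =>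
    hasDerivAt_vline G₀ φ₀ hG₀ t ht
  have hbd' : ∀ t : ℝ, A ≤ t → ‖g' t‖ ≤ C * Real.exp (-c * t) := by
    intro t ht
    simp only [hg', norm_mul, Complex.norm_I, mul_one]
    exact hbd t ht
  have hcontg' : ContinuousOn g' (Ioi 0) := by
    have h1 : ContinuousOn (fun s : ℝ => (s : ℂ) * Complex.I) (Ioi (0 : ℝ)) :=
      (Complex.continuous_ofReal.mul continuous_const).continuousOn
    have h2 : MapsTo (fun s : ℝ => (s : ℂ) * Complex.I) (Ioi (0 : ℝ)) upperHalfPlaneSet := by
      intro s hs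
      show 0 < ((s : ℂ) * Complex.I).im
      simpa using hs
    exact (hcont.comp h1 h2).mul continuousOn_const
  have hexpint : ∀ a : ℝ, IntegrableOn (fun t : ℝ => C * Real.exp (-c * t)) (Ioi a) := by
    intro a
    exact (integrableOn_exp_mul_Ioi (by linarith : -c < 0) a).const_mul C
  have hint : ∀ a : ℝ, A ≤ a → IntegrableOn g' (Ioi a) := by
    intro a ha
    have hmeas : AEStronglyMeasurable g' (volume.restrict (Ioi a)) :=
      (hcontg'.mono (Ioi_subset_Ioi (hA.le.trans ha))).aestronglyMeasurable measurableSet_Ioi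
    refine Integrable.mono' (hexpint a) hmeas ?_
    rw [ae_restrict_iff' measurableSet_Ioi]
    exact Eventually.of_forall fun t ht => hbd' t (ha.trans (le_of_lt ht))
  have htend : Tendsto g atTop (𝓝 (limUnder atTop g)) :=
    tendsto_limUnder_of_hasDerivAt_of_integrableOn_Ioi (a := A)
      (fun x hx => hderiv x (hA.trans hx)) (hint A le_rfl)
  refine ⟨limUnder atTop g, htend, fun y hy => ?_⟩
  have hFTC : ∫ t in Ioi y, g' t = limUnder atTop g - g y :=
    integral_Ioi_of_hasDerivAt_of_tendsto' (fun x hx => hderiv x (hA.trans_le (hy.trans hx)))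
      (hint y hy) htend
  have hnorm : ‖∫ t in Ioi y, g' t‖ ≤ ∫ t in Ioi y, C * Real.exp (-c * t) := by
    refine norm_integral_le_of_norm_le (hexpint y) ?_
    rw [ae_restrict_iff' measurableSet_Ioi]
    exact Eventually.of_forall fun t ht => hbd' t (hy.trans (le_of_lt ht))
  have hval : ∫ t in Ioi y, C * Real.exp (-c * t) = (C / c) * Real.exp (-c * y) := by
    rw [integral_const_mul, integral_exp_mul_Ioi (by linarith : -c < 0) y]
    field_simp
  rw [hFTC, hval] at hnorm
  rw [← norm_neg, neg_sub]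
  exact hnorm

/-- Existence of the normalized primitive of a decaying holomorphic function. -/
theorem exists_isPrim_sed {φ : ℍ → ℂ} (hφ : MDifferentiable 𝓘(ℂ) 𝓘(ℂ) φ) (hdec : SED φ) :
    ∃ G : ℍ → ℂ, IsPrim G φ ∧ SED G := by
  have hdiff : DifferentiableOn ℂ (φ ∘ ofComplex) upperHalfPlaneSet :=
    UpperHalfPlane.mdifferentiable_iff.mp hφ
  obtain ⟨G₀, hG₀⟩ := exists_primitive_upper hdiff
  -- the vertical limit, using the decay data on the strip `B = 0`
  obtain ⟨C₀, c₀, A₀, hC₀, hc₀, hA₀, h₀⟩ := hdec.normal 0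
  have hbd₀ : ∀ t : ℝ, A₀ ≤ t → ‖(φ ∘ ofComplex) ((t : ℂ) * Complex.I)‖
      ≤ C₀ * Real.exp (-c₀ * t) := by
    intro t ht
    have htpos : 0 < t := by linarith
    have := h₀ (vpt t htpos) (by simp) (by simpa using ht)
    rw [vpt_im] at this
    have e : ofComplex ((t : ℂ) * Complex.I) = vpt t htpos :=
      ofComplex_apply (vpt t htpos)
    simpa [Function.comp_def, e] using this
  obtain ⟨L, hL, -⟩ := vertical_estimate G₀ (φ ∘ ofComplex) hG₀ hdiff.continuousOn C₀ c₀ A₀ hc₀
    (by linarith) hbd₀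
  refine ⟨fun z => G₀ z - L, ?_, ?_⟩
  · intro z
    have h1 : HasDerivAt (fun w => G₀ w - L) ((φ ∘ ofComplex) z) (z : ℂ) :=
      (hG₀ z z.im_pos).sub_const L
    rw [Function.comp_apply, ofComplex_apply] at h1
    refine h1.congr_of_eventuallyEq ?_
    filter_upwards [isOpen_upperHalfPlaneSet.mem_nhds z.im_pos] with w hw
    simp [Function.comp_def, ofComplex_apply_of_im_pos hw]
  · intro B
    obtain ⟨C, c, A, hC, hc, hA, h⟩ := hdec.normal |B|
    have hbd : ∀ t : ℝ, A ≤ t → ‖(φ ∘ ofComplex) ((t : ℂ) * Complex.I)‖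
        ≤ C * Real.exp (-c * t) := by
      intro t ht
      have htpos : 0 < t := by linarith
      have := h (vpt t htpos) (by simp) (by simpa using ht)
      rw [vpt_im] at this
      have e : ofComplex ((t : ℂ) * Complex.I) = vpt t htpos :=
        ofComplex_apply (vpt t htpos)
      simpa [Function.comp_def, e] using this
    obtain ⟨L', hL', hest⟩ := vertical_estimate G₀ (φ ∘ ofComplex) hG₀ hdiff.continuousOn C c A hc
      (by linarith) hbd
    have hLL : L' = L := tendsto_nhds_unique hL' hL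
    rw [hLL] at hest
    refine ⟨C * |B| + C / c, c, A, hc, fun z hz hAz => ?_⟩
    -- horizontal estimate
    set y := z.im with hy
    have hypos : 0 < y := z.im_pos
    set s : Set ℂ := {w : ℂ | w.im = y ∧ |w.re| ≤ |B|} with hs
    have hsconv : Convex ℝ s := by
      have h1 : Convex ℝ {w : ℂ | w.im = y} := by
        have := (convex_singleton y).linear_preimage Complex.imLm
        exact this
      have h2 : Convex ℝ {w : ℂ | |w.re| ≤ |B|} := by
        have := (convex_Icc (-|B|) |B|).linear_preimage Complex.reLm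
        have e : {w : ℂ | |w.re| ≤ |B|} = Complex.reLm ⁻¹' (Icc (-|B|) |B|) := by
          ext w
          simp [abs_le]
        rw [e]
        exact this
      exact h1.inter h2
    have hsU : ∀ w ∈ s, w ∈ upperHalfPlaneSet := by
      intro w hw
      show 0 < w.im
      rw [hw.1]
      exact hypos
    have hz_mem : (z : ℂ) ∈ s := by
      refine ⟨UpperHalfPlane.coe_im z, ?_⟩
      rw [UpperHalfPlane.coe_re]
      exact hz.trans (le_abs_self B)
    have hiy_mem : ((y : ℂ) * Complex.I) ∈ s := by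
      refine ⟨by simp, by simp⟩
    have hderivbd : ∀ w ∈ s, ‖deriv G₀ w‖ ≤ C * Real.exp (-c * y) := by
      intro w hw
      rw [(hG₀ w (hsU w hw)).deriv]
      have hw' : 0 < w.im := hsU w hw
      have := h ⟨w, hw'⟩ (by simpa [UpperHalfPlane.re] using hw.2.trans (le_of_eq (abs_abs B).symm))
        (by
          have : (⟨w, hw'⟩ : ℍ).im = y := hw.1
          rw [this]
          exact hAz)
      have e : (⟨w, hw'⟩ : ℍ).im = y := hw.1
      rw [e] at this
      simpa [Function.comp_def, ofComplex_apply_of_im_pos hw'] using this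
    have hhor : ‖G₀ (z : ℂ) - G₀ ((y : ℂ) * Complex.I)‖ ≤ C * Real.exp (-c * y) * |B| := by
      have := hsconv.norm_image_sub_le_of_norm_deriv_le (f := G₀)
        (fun w hw => (hG₀ w (hsU w hw)).differentiableAt) hderivbd hiy_mem hz_mem
      refine this.trans ?_
      apply mul_le_mul_of_nonneg_left _ (by positivity)
      have e : (z : ℂ) - (y : ℂ) * Complex.I = ((z.re : ℝ) : ℂ) := by
        apply Complex.ext <;> simp [hy]
      rw [e, Complex.norm_real, Real.norm_eq_abs]
      exact hz.trans (le_abs_self B)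
    have hver := hest y hAz
    calc ‖G₀ (z : ℂ) - L‖
        = ‖(G₀ (z : ℂ) - G₀ ((y : ℂ) * Complex.I)) + (G₀ ((y : ℂ) * Complex.I) - L)‖ := by
          congr 1; ring
      _ ≤ ‖G₀ (z : ℂ) - G₀ ((y : ℂ) * Complex.I)‖ + ‖G₀ ((y : ℂ) * Complex.I) - L‖ :=
          norm_add_le _ _
      _ ≤ C * Real.exp (-c * y) * |B| + (C / c) * Real.exp (-c * y) := add_le_add hhor hver
      _ = (C * |B| + C / c) * Real.exp (-c * y) := by ring

end Fermat.Agent.S22
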