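import Mathlib

/-!
# Primitives of holomorphic functions on the upper half-plane
-/

set_option autoImplicit false

namespace Fermat.Agent.S22

open Complex Metric Set UpperHalfPlane

/-- The exhausting balls of the upper half-plane. -/
def exhBall (n : ℕ) : Set ℂ := Metric.ball (((n : ℝ) + 1 : ℝ) * Complex.I) ((n : ℝ) + 1)

theorem exhBall_subset_upper (n : ℕ) : exhBall n ⊆ upperHalfPlaneSet := by
  intro z hz
  rw [exhBall, Metric.mem_ball, dist_eq_norm] at hz
  have h1 : |(z - ((n : ℝ) + 1 : ℝ) * Complex.I).im| ≤ ‖z - ((n : ℝ) + 1 : ℝ) * Complex.I‖ :=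
    Complex.abs_im_le_norm _
  have h2 : (z - ((n : ℝ) + 1 : ℝ) * Complex.I).im = z.im - ((n : ℝ) + 1) := by
    simp
  rw [h2] at h1
  have h3 := (abs_le.mp h1).1
  show 0 < z.im
  linarith

theorem I_mem_exhBall (n : ℕ) : Complex.I ∈ exhBall n := by
  rw [exhBall, Metric.mem_ball, dist_eq_norm]
  have : Complex.I - ((n : ℝ) + 1 : ℝ) * Complex.I = ((-(n : ℝ) : ℝ) : ℂ) * Complex.I := by
    push_cast; ring
  rw [this, norm_mul, Complex.norm_I, mul_one, Complex.norm_real, Real.norm_eq_abs, abs_neg,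
    abs_of_nonneg (Nat.cast_nonneg n)]
  linarith

theorem exhBall_mono {n n' : ℕ} (h : n ≤ n') : exhBall n ⊆ exhBall n' := by
  intro z hz
  rw [exhBall, Metric.mem_ball, dist_eq_norm] at hz ⊢
  have hnn : (n : ℝ) ≤ n' := by exact_mod_cast h
  have e : z - ((n' : ℝ) + 1 : ℝ) * Complex.I =
      (z - ((n : ℝ) + 1 : ℝ) * Complex.I) + (((-((n' : ℝ) - n) : ℝ)) : ℂ) * Complex.I := by
    push_cast; ring
  rw [e]
  refine lt_of_le_of_lt (norm_add_le _ _) ?_
  rw [norm_mul, Complex.norm_I, mul_one, Complex.norm_real, Real.norm_eq_abs, abs_neg,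
    abs_of_nonneg (by linarith)]
  linarith

theorem exists_mem_exhBall {z : ℂ} (hz : 0 < z.im) : ∃ n : ℕ, z ∈ exhBall n := by
  obtain ⟨n, hn⟩ := exists_nat_gt ((z.re ^ 2 + z.im ^ 2) / (2 * z.im))
  refine ⟨n, ?_⟩
  rw [exhBall, Metric.mem_ball, dist_eq_norm]
  have h2 : z.re ^ 2 + z.im ^ 2 < (n : ℝ) * (2 * z.im) := by
    rwa [div_lt_iff₀ (by positivity)] at hn
  have hn0 : (0 : ℝ) ≤ n := Nat.cast_nonneg n
  have hsq : ‖z - ((n : ℝ) + 1 : ℝ) * Complex.I‖ ^ 2 < ((n : ℝ) + 1) ^ 2 := by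
    rw [Complex.sq_norm, Complex.normSq_apply]
    simp only [Complex.sub_re, Complex.mul_re, Complex.ofReal_re, Complex.I_re, mul_zero,
      Complex.ofReal_im, Complex.I_im, mul_one, sub_self, sub_zero, Complex.sub_im,
      Complex.mul_im, add_zero]
    nlinarith
  exact lt_of_pow_lt_pow_left₀ 2 (by positivity) hsq

/-- A holomorphic function on the upper half-plane has a primitive there. -/
theorem exists_primitive_upper {φ : ℂ → ℂ} (hφ : DifferentiableOn ℂ φ upperHalfPlaneSet) :
    ∃ G : ℂ → ℂ, ∀ z ∈ upperHalfPlaneSet, HasDerivAt G (φ z) z := by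
  classical
  have hex : ∀ n : ℕ, ∃ g : ℂ → ℂ, g Complex.I = 0 ∧ ∀ z ∈ exhBall n, HasDerivAt g (φ z) z := by
    intro n
    have h1 : DifferentiableOn ℂ φ (exhBall n) := hφ.mono (exhBall_subset_upper n)
    exact (h1.isExactOn_ball).with_val_at Complex.I 0
  choose g hg0 hg using hex
  have hagree : ∀ n n' : ℕ, n ≤ n' → Set.EqOn (g n) (g n') (exhBall n) := by
    intro n n' hnn'
    have hopen : IsOpen (exhBall n) := Metric.isOpen_ball
    have hconn : IsPreconnected (exhBall n) := (convex_ball _ _).isPreconnected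
    refine hopen.eqOn_of_deriv_eq hconn ?_ ?_ ?_ (I_mem_exhBall n) ?_
    · intro z hz
      exact (hg n z hz).differentiableAt.differentiableWithinAt
    · intro z hz
      exact (hg n' z (exhBall_mono hnn' hz)).differentiableAt.differentiableWithinAt
    · intro z hz
      rw [(hg n z hz).deriv, (hg n' z (exhBall_mono hnn' hz)).deriv]
    · rw [hg0 n, hg0 n']
  let G : ℂ → ℂ := fun z => if h : ∃ n, z ∈ exhBall n then g (Classical.choose h) z else 0
  have hG : ∀ n : ℕ, ∀ z ∈ exhBall n, G z = g n z := by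
    intro n z hz
    have h : ∃ n, z ∈ exhBall n := ⟨n, hz⟩
    have hz' : z ∈ exhBall (Classical.choose h) := Classical.choose_spec h
    show (if h : ∃ n, z ∈ exhBall n then g (Classical.choose h) z else 0) = g n z
    rw [dif_pos h]
    have e1 := hagree (Classical.choose h) (max n (Classical.choose h)) (le_max_right _ _) hz'
    have e2 := hagree n (max n (Classical.choose h)) (le_max_left _ _) hz
    rw [e1, e2]
  refine ⟨G, fun z hz => ?_⟩
  obtain ⟨n, hn⟩ := exists_mem_exhBall hz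
  refine (hg n z hn).congr_of_eventuallyEq ?_
  filter_upwards [Metric.isOpen_ball.mem_nhds hn] with w hw
  exact hG n w hw

end Fermat.Agent.S22
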