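import Fermat.Agent.S22.Bounded

/-!
# Separation: a cusp form all of whose period polynomials vanish is zero
-/

set_option autoImplicit false

namespace Fermat.Agent.S22

open Complex UpperHalfPlane Filter Topology Set Matrix.SpecialLinearGroup
open scoped Manifold ModularForm MatrixGroups Pointwise

theorem det_mapGL_pos (g : SL(2, ℤ)) : 0 < (mapGL ℝ g : GL (Fin 2) ℝ).val.det := by
  rw [← Matrix.GeneralLinearGroup.val_det_apply]
  simp

theorem diag_slash_bounded {Γ : Subgroup (GL (Fin 2) ℝ)} [Γ.IsArithmetic] (m : ℕ)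
    (f : CuspForm Γ ((m : ℤ) + 2))
    (hinv : ∀ γ ∈ Γ, diag m ⇑f ∣[-(m : ℤ)] γ = diag m ⇑f) (g : SL(2, ℤ)) :
    IsBoundedAtImInfty (diag m ⇑f ∣[-(m : ℤ)] g) := by
  have hf : IsDH ⇑f := isDH_cuspForm f
  set φg : ℍ → ℂ := ⇑f ∣[(m : ℤ) + 2] g with hφg
  have hφgDH : IsDH φg := isDH_slash_SL f g
  have hdetpos := det_mapGL_pos g
  have hG : ∀ X Y : ℂ, IsPrim
      (fun z => eich m ⇑f ((mapGL ℝ g) • z) (actX (mapGL ℝ g) X Y) (actY (mapGL ℝ g) X Y))
      (fun z => φg z * (X - (z : ℂ) * Y) ^ m) := fun X Y =>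
    IsPrim.comp_act (F := fun z => eich m ⇑f z (actX (mapGL ℝ g) X Y) (actY (mapGL ℝ g) X Y))
      m (mapGL ℝ g) hdetpos X Y (eich_isPrim hf m _ _)
  have hE : ∀ X Y : ℂ, IsPrim (fun z => eich m φg z X Y)
      (fun z => φg z * (X - (z : ℂ) * Y) ^ m) := fun X Y => eich_isPrim hφgDH m X Y
  have hconst : ∀ (X Y : ℂ) (z : ℍ),
      eich m ⇑f ((mapGL ℝ g) • z) (actX (mapGL ℝ g) X Y) (actY (mapGL ℝ g) X Y)
        = eich m φg z X Y +
          (eich m ⇑f ((mapGL ℝ g) • UpperHalfPlane.I) (actX (mapGL ℝ g) X Y) (actY (mapGL ℝ g) X Y)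
            - eich m φg UpperHalfPlane.I X Y) :=
    fun X Y z => (hG X Y).eq_add_const (hE X Y) z
  -- the polynomial part
  obtain ⟨p₁, hp₁⟩ := exists_poly_eich m ⇑f ((mapGL ℝ g) • UpperHalfPlane.I)
    (((mapGL ℝ g : GL (Fin 2) ℝ) 0 0 : ℝ) : ℂ) (((mapGL ℝ g : GL (Fin 2) ℝ) 0 1 : ℝ) : ℂ)
    (((mapGL ℝ g : GL (Fin 2) ℝ) 1 0 : ℝ) : ℂ) (((mapGL ℝ g : GL (Fin 2) ℝ) 1 1 : ℝ) : ℂ)
  obtain ⟨p₂, hp₂⟩ := exists_poly_eich m φg UpperHalfPlane.I 1 0 0 1
  set p : Polynomial ℂ := p₁ - p₂ with hp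
  have hD : ∀ z : ℍ, (diag m ⇑f ∣[-(m : ℤ)] g) z = diag m φg z + p.eval (z : ℂ) := by
    intro z
    rw [diag_slash_SL, hconst (z : ℂ) 1 z, hp, Polynomial.eval_sub, hp₁, hp₂]
    simp only [diag, actX, actY, mul_one, one_mul, zero_mul, add_zero, zero_add]
  -- periodicity
  obtain ⟨M, hM, hper⟩ := periodic_slash_of_invariant (diag m ⇑f) hinv g
  have hMpos : (0 : ℝ) < M := by exact_mod_cast hM
  have hSED := diag_sed hφgDH m
  obtain ⟨C₁, c₁, A₁, hC₁, hc₁, hA₁, hb⟩ := hSED.normal M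
  have hdiff : ∀ y : ℝ, A₁ ≤ y →
      ‖p.eval ((y : ℂ) * Complex.I + (M : ℂ)) - p.eval ((y : ℂ) * Complex.I)‖
        ≤ 2 * C₁ * Real.exp (-c₁ * y) := by
    intro y hy
    have hypos : 0 < y := by linarith
    have hw : 0 < ((y : ℂ) * Complex.I).im := by simpa using hypos
    have hw' : 0 < ((y : ℂ) * Complex.I + (M : ℂ)).im := by simpa using hypos
    set z : ℍ := ⟨(y : ℂ) * Complex.I, hw⟩ with hz
    set z' : ℍ := ⟨(y : ℂ) * Complex.I + (M : ℂ), hw'⟩ with hz'
    have e1 := hD z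
    have e2 := hD z'
    have e3 : (diag m ⇑f ∣[-(m : ℤ)] g) z' = (diag m ⇑f ∣[-(m : ℤ)] g) z := by
      have := hper ((y : ℂ) * Complex.I)
      simp only [Function.comp_apply] at this
      rw [ofComplex_apply_of_im_pos hw, ofComplex_apply_of_im_pos hw'] at this
      exact this
    have e4 : p.eval ((y : ℂ) * Complex.I + (M : ℂ)) - p.eval ((y : ℂ) * Complex.I)
        = diag m φg z - diag m φg z' := by
      have e1' : (diag m ⇑f ∣[-(m : ℤ)] g) z = diag m φg z + p.eval ((y : ℂ) * Complex.I) := e1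
      have e2' : (diag m ⇑f ∣[-(m : ℤ)] g) z'
          = diag m φg z' + p.eval ((y : ℂ) * Complex.I + (M : ℂ)) := e2
      rw [e3, e1'] at e2'
      linear_combination -e2'
    have b1 : ‖diag m φg z‖ ≤ C₁ * Real.exp (-c₁ * y) := by
      have hre : |z.re| ≤ (M : ℝ) := by
        have : z.re = 0 := by simp [hz, UpperHalfPlane.re]
        rw [this, abs_zero]; exact hMpos.le
      have him : z.im = y := by simp [hz, UpperHalfPlane.im]
      have := hb z hre (by rw [him]; exact hy)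
      rwa [him] at this
    have b2 : ‖diag m φg z'‖ ≤ C₁ * Real.exp (-c₁ * y) := by
      have hre : |z'.re| ≤ (M : ℝ) := by
        have : z'.re = M := by simp [hz', UpperHalfPlane.re]
        rw [this, abs_of_pos hMpos]
      have him : z'.im = y := by simp [hz', UpperHalfPlane.im]
      have := hb z' hre (by rw [him]; exact hy)
      rwa [him] at this
    rw [e4]
    calc ‖diag m φg z - diag m φg z'‖ ≤ ‖diag m φg z‖ + ‖diag m φg z'‖ := norm_sub_le _ _
      _ ≤ C₁ * Real.exp (-c₁ * y) + C₁ * Real.exp (-c₁ * y) := add_le_add b1 b2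
      _ = 2 * C₁ * Real.exp (-c₁ * y) := by ring
  have hr : p.comp (Polynomial.X + Polynomial.C (M : ℂ)) - p = 0 := by
    apply poly_eq_zero_of_tendsto
    have hlim := tendsto_const_mul_exp_neg (2 * C₁) c₁ hc₁
    refine squeeze_zero_norm' ?_ hlim
    filter_upwards [eventually_ge_atTop A₁] with y hy
    have := hdiff y hy
    simpa [Polynomial.eval_comp] using this
  have hpper : ∀ x : ℂ, p.eval (x + (M : ℂ)) = p.eval x := by
    intro x
    have := congrArg (Polynomial.eval x) hr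
    simp only [Polynomial.eval_sub, Polynomial.eval_comp, Polynomial.eval_add, Polynomial.eval_X,
      Polynomial.eval_C, Polynomial.eval_zero] at this
    exact sub_eq_zero.mp this
  have hMne : (M : ℂ) ≠ 0 := by exact_mod_cast hM.ne'
  have hpconst : ∀ x : ℂ, p.eval x = p.eval 0 := poly_eval_eq_of_periodic p M hMne hpper
  refine isBoundedAtImInfty_of_periodic_of_strip _ M hM hper (C₁ + ‖p.eval 0‖) A₁ ?_
  intro z hz hA
  rw [hD z, hpconst]
  have h1 := hb z hz hA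
  have h2 : Real.exp (-c₁ * z.im) ≤ 1 := by
    rw [Real.exp_le_one_iff]
    have := z.im_pos
    nlinarith
  calc ‖diag m φg z + p.eval 0‖ ≤ ‖diag m φg z‖ + ‖p.eval 0‖ := norm_add_le _ _
    _ ≤ C₁ * Real.exp (-c₁ * z.im) + ‖p.eval 0‖ := by linarith
    _ ≤ C₁ * 1 + ‖p.eval 0‖ := by
        have := mul_le_mul_of_nonneg_left h2 hC₁
        linarith
    _ = C₁ + ‖p.eval 0‖ := by ring

/-- The diagonal Eichler integral as a modular form of weight `-m`. -/
noncomputable def diagMF {Γ : Subgroup (GL (Fin 2) ℝ)} [Γ.IsArithmetic] (m : ℕ)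
    (f : CuspForm Γ ((m : ℤ) + 2)) (w : ℤ) (hw : w = -(m : ℤ))
    (hinv : ∀ γ ∈ Γ, diag m ⇑f ∣[-(m : ℤ)] γ = diag m ⇑f) : ModularForm Γ w where
  toFun := diag m ⇑f
  slash_action_eq' := by
    subst hw
    exact hinv
  holo' := diag_mdifferentiable (isDH_cuspForm f) m
  bdd_at_cusps' := by
    subst hw
    intro c hc
    rw [Subgroup.IsArithmetic.isCusp_iff_isCusp_SL2Z] at hc
    rw [OnePoint.isBoundedAt_iff_forall_SL2Z hc]
    intro γ _
    exact diag_slash_bounded m f hinv γ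

theorem eq_zero_of_diag_invariant {Γ : Subgroup (GL (Fin 2) ℝ)} [Γ.IsArithmetic] (m : ℕ)
    (f : CuspForm Γ ((m : ℤ) + 2))
    (hinv : ∀ γ ∈ Γ, diag m ⇑f ∣[-(m : ℤ)] γ = diag m ⇑f) : f = 0 := by
  have hf := isDH_cuspForm f
  have hconst : ∃ c : ℂ, ∀ z, diag m ⇑f z = c := by
    rcases Nat.eq_zero_or_pos m with hm | hm
    · obtain ⟨c, hc⟩ := ModularForm.eq_const_of_weight_zero
        (diagMF m f 0 (by simp [hm]) hinv)
      exact ⟨c, fun z => congrFun hc z⟩
    · have hneg : -(m : ℤ) < 0 := by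
        have : (0 : ℤ) < m := by exact_mod_cast hm
        linarith
      have h0 := ModularForm.isZero_of_neg_weight hneg (diagMF m f (-(m : ℤ)) rfl hinv)
      refine ⟨0, fun z => ?_⟩
      have := congrArg (fun G : ModularForm Γ (-(m : ℤ)) => G z) h0
      exact this
  obtain ⟨c, hc⟩ := hconst
  have h0 := eq_zero_of_diag_const hf m c hc
  ext z
  exact h0 z

end Fermat.Agent.S22
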