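import Mathlib
import Fermat.Prelude.Def_CuspForm_HeckeAlgebra
import Fermat.Prelude.Def_CuspForm_IntegralStructure
import Fermat.Prelude.Thm_CuspForm_mem_intLattice_of_mem_heckeAlgebra
import Fermat.Prelude.Thm_CuspForm_intLattice_fg
import Fermat.Agent.S22.helper31_TrivialWeights

/-!
# S22 from an integral structure (second route)

If the weight `k ≥ 1` cusp forms of level `Γ₀(N)` have an integral structure
(`CuspForm.HasIntegralStructure N k`), then the Hecke algebra `CuspForm.heckeAlgebra N k S`
is a finitely generated `ℤ`-module: it embeds into `End_ℤ` of the finitely generated free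
`ℤ`-module `CuspForm.intLattice N k`.
-/

set_option autoImplicit false

noncomputable section

namespace Fermat.Agent.S22.helper16

open CuspForm

variable (N : ℕ) [NeZero N] (k : ℤ) (S : Set ℕ)

theorem intLattice_moduleFinite : Module.Finite ℤ ↥(intLattice N k) :=
  Module.Finite.iff_fg.mpr (intLattice_fg N k)

omit [NeZero N] in
theorem isAddTorsionFree_cuspForm' :
    IsAddTorsionFree (CuspForm (CongruenceSubgroup.Gamma0 N) k) :=
  .of_isTorsionFree ℂ _

theorem intLattice_moduleFree : Module.Free ℤ ↥(intLattice N k) := by
  have := intLattice_moduleFinite N k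
  have := isAddTorsionFree_cuspForm' N k
  exact Module.free_of_finite_type_torsion_free'

/-- Restriction of a Hecke operator to the integral lattice. -/
def latRestrict (hk : 1 ≤ k) (t : ↥(heckeAlgebra N k S)) : Module.End ℤ ↥(intLattice N k) :=
  LinearMap.restrict ((t : Module.End ℂ (CuspForm (CongruenceSubgroup.Gamma0 N) k)).restrictScalars ℤ)
    (fun _f hf => mem_intLattice_of_mem_heckeAlgebra hk t.2 hf)

/-- Restriction to the integral lattice, as a `ℤ`-linear map. -/
def latRestrictLin (hk : 1 ≤ k) : ↥(heckeAlgebra N k S) →ₗ[ℤ] Module.End ℤ ↥(intLattice N k) where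
  toFun t := latRestrict N k S hk t
  map_add' _ _ := LinearMap.ext fun _ => Subtype.ext rfl
  map_smul' _ _ := LinearMap.ext fun _ => Subtype.ext rfl

theorem latRestrictLin_injective (hk : 1 ≤ k) (hint : HasIntegralStructure N k) :
    Function.Injective (latRestrictLin N k S hk) := by
  rw [← LinearMap.ker_eq_bot, LinearMap.ker_eq_bot']
  intro t ht
  refine Subtype.ext (LinearMap.ext_on hint fun f hf => ?_)
  exact congrArg Subtype.val (LinearMap.congr_fun ht ⟨f, hf⟩)

end Fermat.Agent.S22.helper16

namespace Fermat.Agent.S22.helper16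

open CuspForm

/-- **S22 from an integral structure.** -/
theorem finite_heckeAlgebra_of_hasIntegralStructure (N : ℕ) [NeZero N] (k : ℤ) (hk : 1 ≤ k)
    (S : Set ℕ) (h : CuspForm.HasIntegralStructure N k) :
    Module.Finite ℤ (CuspForm.heckeAlgebra N k S) := by
  have := intLattice_moduleFinite N k
  have := intLattice_moduleFree N k
  exact Module.Finite.of_injective (latRestrictLin N k S hk) (latRestrictLin_injective N k S hk h)

/-- **S22 from integral structures in all weights `≥ 2`** (weights `≤ 1` carry no cusp
forms). -/
theorem finite_heckeAlgebra_of_forall_hasIntegralStructure (N : ℕ) [NeZero N]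
    (h : ∀ k : ℤ, 2 ≤ k → CuspForm.HasIntegralStructure N k) (k : ℤ) (S : Set ℕ) :
    Module.Finite ℤ (CuspForm.heckeAlgebra N k S) := by
  rcases le_or_gt k 1 with hk | hk
  · exact Fermat.Agent.S22.helper31.finite_heckeAlgebra_of_weight_le_one N hk S
  · exact finite_heckeAlgebra_of_hasIntegralStructure N k (by omega) S (h k (by omega))

end Fermat.Agent.S22.helper16
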