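import Mathlib

/-!
# S22 helper (helper31): abstract lattice criterion

If a set `gens` of endomorphisms of a complex vector space `V` stabilises (by transposition) a
finitely generated `ℤ`-submodule `Λ` of the dual of `V` that separates the points of `V`, then the
`ℤ`-subalgebra generated by `gens` is a finitely generated `ℤ`-module.
-/

namespace Fermat.Agent.S22.helper31

open Module

variable {V : Type*} [AddCommGroup V] [Module ℂ V]

/-- The set of endomorphisms whose transpose stabilises `Λ`, as a `ℤ`-subalgebra. -/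
def stabSubalgebra (Λ : Submodule ℤ (Module.Dual ℂ V)) : Subalgebra ℤ (Module.End ℂ V) where
  carrier := {t | ∀ l ∈ Λ, l.comp t ∈ Λ}
  mul_mem' := by
    intro a b ha hb l hl
    have h1 : l.comp a ∈ Λ := ha l hl
    have h2 := hb _ h1
    simpa [LinearMap.comp_assoc, Module.End.mul_eq_comp] using h2
  add_mem' := by
    intro a b ha hb l hl
    have h : l.comp (a + b) = l.comp a + l.comp b := LinearMap.comp_add _ _ _
    rw [h]
    exact Λ.add_mem (ha l hl) (hb l hl)
  algebraMap_mem' := by
    intro n l hl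
    have h : l.comp (algebraMap ℤ (Module.End ℂ V) n) = n • l := by
      ext v
      simp
    rw [h]
    exact Λ.smul_mem n hl

theorem mem_stabSubalgebra {Λ : Submodule ℤ (Module.Dual ℂ V)} {t : Module.End ℂ V} :
    t ∈ stabSubalgebra Λ ↔ ∀ l ∈ Λ, l.comp t ∈ Λ := Iff.rfl

/-- Transposition as a `ℤ`-linear map from the stabiliser subalgebra to `End_ℤ Λ`. -/
def transposeHom (Λ : Submodule ℤ (Module.Dual ℂ V)) :
    stabSubalgebra Λ →ₗ[ℤ] (Λ →ₗ[ℤ] Λ) where
  toFun t :=
    { toFun := fun l => ⟨(l : Module.Dual ℂ V).comp (t : Module.End ℂ V), t.2 l l.2⟩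
      map_add' := by
        intro l l'
        apply Subtype.ext
        simp [LinearMap.add_comp]
      map_smul' := by
        intro n l
        apply Subtype.ext
        ext v
        simp }
  map_add' := by
    intro t t'
    ext l v
    simp
  map_smul' := by
    intro n t
    ext l v
    simp

theorem transposeHom_injective (Λ : Submodule ℤ (Module.Dual ℂ V))
    (hsep : ∀ v : V, (∀ l ∈ Λ, l v = 0) → v = 0) :
    Function.Injective (transposeHom Λ) := by
  rw [injective_iff_map_eq_zero]
  intro t ht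
  apply Subtype.ext
  ext v
  apply hsep
  intro l hl
  have h := congrArg (fun φ : Λ →ₗ[ℤ] Λ => ((φ ⟨l, hl⟩ : Λ) : Module.Dual ℂ V) v) ht
  simpa [transposeHom] using h

theorem finite_stabSubalgebra (Λ : Submodule ℤ (Module.Dual ℂ V)) (hfg : Λ.FG)
    (hsep : ∀ v : V, (∀ l ∈ Λ, l v = 0) → v = 0) :
    Module.Finite ℤ (stabSubalgebra Λ) := by
  haveI : Module.Finite ℤ Λ := Module.Finite.iff_fg.mpr hfg
  haveI : Module.Free ℤ Λ := Module.free_of_finite_type_torsion_free'
  haveI : Module.Finite ℤ (Λ →ₗ[ℤ] Λ) := Module.Finite.linearMap ℤ ℤ Λ Λ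
  haveI : IsNoetherian ℤ (Λ →ₗ[ℤ] Λ) := isNoetherian_of_isNoetherianRing_of_finite ℤ _
  exact Module.Finite.of_injective (transposeHom Λ) (transposeHom_injective Λ hsep)

/-- **Abstract lattice criterion.** -/
theorem finite_adjoin_of_dual_lattice (gens : Set (Module.End ℂ V))
    (Λ : Submodule ℤ (Module.Dual ℂ V)) (hfg : Λ.FG)
    (hsep : ∀ v : V, (∀ l ∈ Λ, l v = 0) → v = 0)
    (hstab : ∀ t ∈ gens, ∀ l ∈ Λ, l.comp t ∈ Λ) :
    Module.Finite ℤ (Algebra.adjoin ℤ gens) := by
  have hle : Algebra.adjoin ℤ gens ≤ stabSubalgebra Λ :=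
    Algebra.adjoin_le (fun t ht => hstab t ht)
  haveI := finite_stabSubalgebra Λ hfg hsep
  haveI : IsNoetherian ℤ (stabSubalgebra Λ) := isNoetherian_of_isNoetherianRing_of_finite ℤ _
  exact Module.Finite.of_injective (Subalgebra.inclusion hle).toLinearMap
    (Subalgebra.inclusion_injective hle)

end Fermat.Agent.S22.helper31
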