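import Mathlib

/-!
# S22 helper (helper31): polynomial facts (P5)

* `poly_eq_zero_of_tendsto_zero`: a complex polynomial tending to `0` along `i·y`, `y → ∞`, is `0`.
* `poly_eq_C_of_comp_add_eq`: a complex polynomial with a nonzero period is constant.
* `mvPoly_eq_zero_of_eval_int`: a polynomial in two variables vanishing on `ℤ²` is `0`.
-/

set_option autoImplicit false

namespace Fermat.Agent.S22.helper31

open Polynomial Filter Topology

/-- **(P5a)** -/
theorem poly_eq_zero_of_tendsto_zero (p : Polynomial ℂ)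
    (h : Tendsto (fun y : ℝ => p.eval ((y : ℂ) * Complex.I)) atTop (nhds 0)) : p = 0 := by
  by_cases hd : 0 < p.degree
  · exfalso
    have hz : Tendsto (fun y : ℝ => ‖(y : ℂ) * Complex.I‖) atTop atTop := by
      have : (fun y : ℝ => ‖(y : ℂ) * Complex.I‖) = fun y : ℝ => |y| := by
        funext y
        simp
      rw [this]
      exact tendsto_abs_atTop_atTop
    have h1 := p.tendsto_norm_atTop hd hz
    have h2 : Tendsto (fun y : ℝ => ‖p.eval ((y : ℂ) * Complex.I)‖) atTop (nhds 0) := by
      simpa using h.norm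
    exact not_tendsto_nhds_of_tendsto_atTop h1 _ h2
  · have hC := eq_C_of_degree_le_zero (le_of_not_gt hd)
    rw [hC] at h ⊢
    simp only [eval_C] at h
    have h0 : p.coeff 0 = 0 := tendsto_nhds_unique tendsto_const_nhds h
    rw [h0, map_zero]

/-- **(P5b)** -/
theorem poly_eq_C_of_comp_add_eq (p : Polynomial ℂ) (w : ℂ) (hw : w ≠ 0)
    (h : p.comp (X + C w) = p) : ∃ c, p = C c := by
  refine ⟨p.eval 0, ?_⟩
  have hper : ∀ z : ℂ, p.eval (z + w) = p.eval z := by
    intro z
    have := congrArg (Polynomial.eval z) h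
    simpa [eval_comp] using this
  have hnat : ∀ n : ℕ, p.eval ((n : ℂ) * w) = p.eval 0 := by
    intro n
    induction n with
    | zero => simp
    | succ n ih =>
      have : ((n + 1 : ℕ) : ℂ) * w = (n : ℂ) * w + w := by push_cast; ring
      rw [this, hper, ih]
  have hzero : p - C (p.eval 0) = 0 := by
    apply eq_zero_of_infinite_isRoot
    have hinj : Function.Injective (fun n : ℕ => (n : ℂ) * w) := by
      intro a b hab
      have := mul_right_cancel₀ hw hab
      exact_mod_cast this
    refine Set.infinite_of_injective_forall_mem hinj (fun n => ?_)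
    simp [IsRoot, hnat n]
  exact sub_eq_zero.mp hzero

/-- **(P5c)** -/
theorem mvPoly_eq_zero_of_eval_int (q : MvPolynomial (Fin 2) ℂ)
    (h : ∀ a b : ℤ, MvPolynomial.eval ![(a : ℂ), (b : ℂ)] q = 0) : q = 0 := by
  have hinf : (Set.range (Int.cast : ℤ → ℂ)).Infinite :=
    Set.infinite_range_of_injective Int.cast_injective
  refine MvPolynomial.funext_set (fun _ => Set.range (Int.cast : ℤ → ℂ)) (fun _ => hinf) ?_
  intro x hx
  obtain ⟨a, ha⟩ := hx 0 (Set.mem_univ _)
  obtain ⟨b, hb⟩ := hx 1 (Set.mem_univ _)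
  have hxe : x = ![(a : ℂ), (b : ℂ)] := by
    funext i
    fin_cases i
    · simpa using ha.symm
    · simpa using hb.symm
  rw [hxe, h a b, map_zero]

end Fermat.Agent.S22.helper31
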